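import Fermat.Agent.TWP.GW.Matrix
import Fermat.Agent.CFT.LC.Criterion
import Fermat.Agent.CFT.W.Global

/-!
# From the local Galois group to the decomposition group

Level-constant cocycles on a group `Γ` mapping densely to `D ≤ G` are the same as level-constant
cocycles on `D`.
-/

set_option autoImplicit false
set_option linter.unusedSectionVars false

namespace Fermat.Agent.TWP.GW

open Module Matrix Pointwise Fermat.Agent.CFT Fermat.Agent.CFT.LC Fermat.Agent.CFT.PT ExtCitation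

section Dense

variable {k : Type} [Field k] {G Γ : Type} [Group G] [Group Γ] (L : Lvl G) (r : Γ →* G)
  (D : Subgroup G) (hrD : ∀ γ, r γ ∈ D)

/-- `r` has dense image in `D`. -/
def DenseIn : Prop := ∀ N ∈ L.levels, ∀ d ∈ D, ∃ γ, ∃ u ∈ N, d = r γ * u

/-- The corestriction of `r`. -/
def corD : Γ →* D := r.codRestrict D hrD

@[simp] theorem coe_corD (γ : Γ) : (corD r D hrD γ : G) = r γ := rfl

variable {L r D hrD} {M : G →* Matrix (Fin 2) (Fin 2) k}

theorem eq_of_comp_eq (hd : DenseIn L r D) {X : Type} {f g : D → X}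
    (hf : IsLC₁ (L.comap D.subtype) f) (hg : IsLC₁ (L.comap D.subtype) g)
    (h : ∀ γ, f (corD r D hrD γ) = g (corD r D hrD γ)) : f = g := by
  obtain ⟨_, ⟨N, hN, rfl⟩, h1⟩ := hf
  obtain ⟨_, ⟨N', hN', rfl⟩, h2⟩ := hg
  obtain ⟨W, hW, hWN, hWN'⟩ := L.directed N hN N' hN'
  funext d
  obtain ⟨γ, u, hu, hdu⟩ := hd W hW d.1 d.2
  have hu' : u ∈ D := by
    have : u = (r γ)⁻¹ * d.1 := by rw [hdu]; group
    rw [this]
    exact D.mul_mem (D.inv_mem (hrD γ)) d.2
  have h3 : d = corD r D hrD γ * ⟨u, hu'⟩ := Subtype.ext hdu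
  rw [h3, h1 _ ⟨u, hu'⟩ (hWN hu), h2 _ ⟨u, hu'⟩ (hWN' hu), h]

/-- A level-constant function on `Γ` comes from `D`. -/
theorem exists_comp_eq (hd : DenseIn L r D) {X : Type} {f : Γ → X}
    (hf : IsLC₁ (L.comap r) f) :
    ∃ f' : D → X, IsLC₁ (L.comap D.subtype) f' ∧ ∀ γ, f' (corD r D hrD γ) = f γ := by
  classical
  obtain ⟨_, ⟨N, hN, rfl⟩, h1⟩ := hf
  have hnorm := L.normal N hN
  have key : ∀ γ γ' : Γ, ∀ u ∈ N, r γ' = r γ * u → f γ' = f γ := by
    intro γ γ' u hu h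
    have h2 := h1 γ (γ⁻¹ * γ') (by
      show r (γ⁻¹ * γ') ∈ N
      rw [map_mul, map_inv, h]
      simpa using hu)
    rwa [mul_inv_cancel_left] at h2
  choose γ u hu hdu using hd N hN
  refine ⟨fun d => f (γ d.1 d.2), ⟨_, ⟨N, hN, rfl⟩, fun d s hs => ?_⟩, fun g => ?_⟩
  · -- compare `γ (d s)` and `γ d`
    have e1 := hdu d.1 d.2
    have e2 := hdu (d * s).1 (d * s).2
    refine key _ _ (u d.1 d.2 * s.1 * (u (d * s).1 (d * s).2)⁻¹)
      (N.mul_mem (N.mul_mem (hu _ _) hs) (N.inv_mem (hu _ _))) ?_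
    have e3 : r (γ (d * s).1 (d * s).2) = (d * s).1 * (u (d * s).1 (d * s).2)⁻¹ := by
      rw [eq_mul_inv_iff_mul_eq, ← e2]
    rw [e3, ← mul_assoc, ← mul_assoc, ← e1]
    rfl
  · refine key _ _ (u (r g) (hrD g))⁻¹ (N.inv_mem (hu _ _)) ?_
    exact eq_mul_inv_of_mul_eq (hdu (r g) (hrD g)).symm

theorem adj_subtype (d : D) (X : Matrix (Fin 2) (Fin 2) k) :
    adj (M.comp D.subtype) d X = adj M d X := adj_comp M D.subtype d X

theorem comp_mem_zAd {u : D → Matrix (Fin 2) (Fin 2) k}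
    (hu : u ∈ zAd (M.comp D.subtype) (L.comap D.subtype)) :
    u ∘ corD r D hrD ∈ zAd (M.comp r) (L.comap r) := by
  obtain ⟨h1, h2, _, ⟨N, hN, rfl⟩, h3⟩ := hu
  refine ⟨fun g => h1 _, fun g h => ?_, _, ⟨N, hN, rfl⟩, fun g s hs => ?_⟩
  · simp only [Function.comp_apply, map_mul, h2]
    rw [adj_subtype, adj_comp, coe_corD]
  · simp only [Function.comp_apply, map_mul]
    exact h3 _ _ hs

theorem exists_zAd_comp (hd : DenseIn L r D) {f : Γ → Matrix (Fin 2) (Fin 2) k}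
    (hM : IsLC₁ L M)
    (hf : f ∈ zAd (M.comp r) (L.comap r)) :
    ∃ u ∈ zAd (M.comp D.subtype) (L.comap D.subtype), u ∘ corD r D hrD = f := by
  obtain ⟨h1, h2, h3⟩ := hf
  obtain ⟨u, hu, h⟩ := exists_comp_eq (hrD := hrD) hd h3
  refine ⟨u, ⟨fun d => ?_, fun d e => ?_, hu⟩, funext h⟩
  · have := eq_of_comp_eq (hrD := hrD) hd (f := fun d => (u d).trace) (g := fun _ => 0)
      (hu.comp Matrix.trace) (isLC₁_const 0) (fun γ => by
        show (u (corD r D hrD γ)).trace = 0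
        rw [h, h1])
    exact congrFun this d
  · obtain ⟨N, hN, hMN⟩ := hM
    -- fix `d`, then `e`, approximating both
    obtain ⟨_, ⟨N', hN', rfl⟩, hu'⟩ := hu
    obtain ⟨W, hW, hWN, hWN'⟩ := L.directed N hN N' hN'
    have hWn := L.normal W hW
    obtain ⟨γ, s, hs, hγ⟩ := hd W hW d.1 d.2
    obtain ⟨γ', s', hs', hγ'⟩ := hd W hW e.1 e.2
    have hsD : s ∈ D := by
      have : s = (r γ)⁻¹ * d.1 := by rw [hγ]; group
      rw [this]; exact D.mul_mem (D.inv_mem (hrD γ)) d.2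
    have hsD' : s' ∈ D := by
      have : s' = (r γ')⁻¹ * e.1 := by rw [hγ']; group
      rw [this]; exact D.mul_mem (D.inv_mem (hrD γ')) e.2
    have ed : d = corD r D hrD γ * ⟨s, hsD⟩ := Subtype.ext hγ
    have ee : e = corD r D hrD γ' * ⟨s', hsD'⟩ := Subtype.ext hγ'
    have ud : u d = f γ := by rw [ed, hu' _ ⟨s, hsD⟩ (hWN' hs), h]
    have ue : u e = f γ' := by rw [ee, hu' _ ⟨s', hsD'⟩ (hWN' hs'), h]
    have hde : d * e = corD r D hrD (γ * γ') *
        (⟨(r γ')⁻¹ * s * r γ', D.mul_mem (D.mul_mem (D.inv_mem (hrD γ')) hsD) (hrD γ')⟩ *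
          ⟨s', hsD'⟩) := by
      refine Subtype.ext ?_
      show d.1 * e.1 = r (γ * γ') * ((r γ')⁻¹ * s * r γ' * s')
      rw [hγ, hγ', map_mul]
      group
    have hde' : u (d * e) = f (γ * γ') := by
      rw [hde, hu' _ _ (hWN' (W.mul_mem (by simpa using hWn.conj_mem s hs (r γ')⁻¹) hs')), h]
    rw [hde', h2, ud, ue, adj_comp, adj_subtype]
    have hM1 : ∀ t ∈ W, M t = 1 := by
      intro t ht
      have := hMN 1 t (hWN ht)
      rwa [one_mul, map_one] at this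
    congr 1
    rw [adj, adj, hγ, _root_.mul_inv_rev, map_mul, map_mul, hM1 s hs, hM1 s⁻¹ (W.inv_mem hs), mul_one,
      one_mul]

end Dense

section Push

variable {k : Type} [Field k] {G Γ : Type} [Group G] [Group Γ] {L : Lvl G} {r : Γ →* G}
  {D : Subgroup G} (hrD : ∀ γ, r γ ∈ D) {M : G →* Matrix (Fin 2) (Fin 2) k}

/-- Transport of functions on `D` to functions on `Γ`. -/
noncomputable def push (U : Submodule k (D → Matrix (Fin 2) (Fin 2) k)) :
    Submodule k (Γ → Matrix (Fin 2) (Fin 2) k) :=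
  U.map (LinearMap.funLeft k _ (corD r D hrD))

variable {hrD}

theorem mem_push {U : Submodule k (D → Matrix (Fin 2) (Fin 2) k)}
    {f : Γ → Matrix (Fin 2) (Fin 2) k} :
    f ∈ push hrD U ↔ ∃ u ∈ U, u ∘ corD r D hrD = f := Iff.rfl

theorem push_le {U : Submodule k (D → Matrix (Fin 2) (Fin 2) k)}
    (hU : U ≤ zAd (M.comp D.subtype) (L.comap D.subtype)) :
    push hrD U ≤ zAd (M.comp r) (L.comap r) := by
  rintro _ ⟨u, hu, rfl⟩
  exact comp_mem_zAd (hU hu)

theorem push_zAd (hd : DenseIn L r D) (hM : IsLC₁ L M) :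
    push hrD (zAd (M.comp D.subtype) (L.comap D.subtype)) = zAd (M.comp r) (L.comap r) := by
  refine le_antisymm (push_le le_rfl) fun f hf => ?_
  obtain ⟨u, hu, rfl⟩ := exists_zAd_comp (hrD := hrD) hd hM hf
  exact ⟨u, hu, rfl⟩

theorem finrank_push (hd : DenseIn L r D) {U : Submodule k (D → Matrix (Fin 2) (Fin 2) k)}
    (hU : U ≤ zAd (M.comp D.subtype) (L.comap D.subtype)) :
    finrank k (push hrD U) = finrank k U := by
  have hinj : Function.Injective ((LinearMap.funLeft k (Matrix (Fin 2) (Fin 2) k)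
      (corD r D hrD)).domRestrict U) := by
    intro f g h
    exact Subtype.ext (eq_of_comp_eq (hrD := hrD) hd (hU f.2).2.2 (hU g.2).2.2
      fun γ => congrFun h γ)
  have h1 := LinearMap.finrank_range_of_inj hinj
  rw [LinearMap.range_domRestrict] at h1
  exact h1

theorem comp_mem_push (hd : DenseIn L r D) {U : Submodule k (D → Matrix (Fin 2) (Fin 2) k)}
    (hU : U ≤ zAd (M.comp D.subtype) (L.comap D.subtype)) {a : G → Matrix (Fin 2) (Fin 2) k}
    (ha : IsLC₁ L a) : a ∘ r ∈ push hrD U ↔ (fun d : D => a d) ∈ U := by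
  constructor
  · rintro ⟨u, hu, h⟩
    have : u = fun d : D => a d := eq_of_comp_eq (hrD := hrD) hd (hU hu).2.2
      (by
        obtain ⟨N, hN, h⟩ := ha
        exact ⟨_, ⟨N, hN, rfl⟩, fun d s hs => h d s hs⟩) fun γ => congrFun h γ
    rwa [← this]
  · intro h
    exact ⟨_, h, rfl⟩

theorem cobound_of_comp (hd : DenseIn L r D) (hM : IsLC₁ L M)
    {ψ : G → Matrix (Fin 2) (Fin 2) k} (hψ : IsLC₁ L ψ) {X : Matrix (Fin 2) (Fin 2) k}
    (h : ∀ γ, ψ (r γ) = tw M (r γ) X - X) (hrD : ∀ γ, r γ ∈ D) : ∀ φ ∈ D, ψ φ = tw M φ X - X := by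
  have key : (fun d : D => ψ d) = fun d : D => tw M d X - X := by
    refine eq_of_comp_eq (hrD := hrD) hd ?_ ?_ (fun γ => h γ)
    · obtain ⟨N, hN, h⟩ := hψ
      exact ⟨_, ⟨N, hN, rfl⟩, fun d s hs => h d s hs⟩
    · obtain ⟨N, hN, h⟩ := hM
      refine ⟨_, ⟨N, hN, rfl⟩, fun d s hs => ?_⟩
      have h2 : M ((d * s : D) : G) = M (d : G) := h d s hs
      simp only [tw_congr h2]
  intro φ hφ
  exact congrFun key ⟨φ, hφ⟩

end Push

section Concrete

local notation "ℚbar" => AlgebraicClosure ℚ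
local notation "ΓQ" => (AlgebraicClosure ℚ ≃ₐ[ℚ] AlgebraicClosure ℚ)

/-- The decomposition group at the distinguished place above `q`. -/
noncomputable abbrev Dq (q : Nat.Primes) : Subgroup ΓQ := (primeLocalPlace q).decompositionSubgroup ℚ

theorem primeLocalToGlobal_mem (q : Nat.Primes) (γ : primeLocalGaloisGroup q) :
    primeLocalToGlobal q γ ∈ Dq q := by
  have : Fact (q : ℕ).Prime := ⟨q.2⟩
  exact localGaloisToGlobal_mem_decompositionSubgroup (q : ℕ) γ

theorem mem_padicPlace_of_mem_decomposition {q : ℕ} [Fact q.Prime] {d : ΓQ}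
    (hd : d ∈ (padicPlace q).decompositionSubgroup ℚ) (x : ℚbar) :
    d x ∈ padicPlace q ↔ x ∈ padicPlace q := by
  rw [MulAction.mem_stabilizer_iff] at hd
  conv_lhs => rw [← hd]
  rw [ValuationSubring.mem_pointwise_smul_iff_inv_smul_mem]
  have : d⁻¹ • d x = x := d.symm_apply_apply x
  rw [this]

theorem denseIn (q : Nat.Primes) :
    DenseIn (krull ℚ ℚbar) (primeLocalToGlobal q) (Dq q) := by
  have : Fact (q : ℕ).Prime := ⟨q.2⟩
  rintro _ ⟨F, hF, hF', rfl⟩ d hd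
  have : FiniteDimensional ℚ F := hF
  have h1 : W.pl (W.emb (q : ℕ) F 1) = W.pl (W.emb (q : ℕ) F d) := by
    apply IsDedekindDomain.HeightOneSpectrum.ext
    ext x
    rw [W.mem_pl, W.mem_pl]
    have key : ∀ y : ℚbar, ‖padicEmbedding (q : ℕ) y‖ < 1 ↔ (y = 0 ∨ y⁻¹ ∉ padicPlace (q : ℕ)) := by
      intro y
      by_cases hy : y = 0
      · simp [hy]
      · rw [mem_padicPlace_iff, map_inv₀, nnnorm_inv]
        have h0 : ‖padicEmbedding (q : ℕ) y‖₊ ≠ 0 := by
          rw [nnnorm_ne_zero_iff]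
          exact (map_ne_zero _).mpr hy
        rw [not_le, or_iff_right hy]
        rw [one_lt_inv₀ (pos_iff_ne_zero.mpr h0)]
        exact Iff.rfl
    have e1 : W.emb (q : ℕ) F 1 (x : F) = padicEmbedding (q : ℕ) (x : F) := rfl
    have e2 : W.emb (q : ℕ) F d (x : F) = padicEmbedding (q : ℕ) (d (x : F)) := rfl
    rw [e1, e2, key, key, ← map_inv₀, mem_padicPlace_of_mem_decomposition hd, map_eq_zero]
  obtain ⟨τ, u, hu, h⟩ := (W.pl_emb_eq_iff (q : ℕ) F 1 d).mp h1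
  exact ⟨τ, u, hu, by rw [h, mul_one]; rfl⟩

end Concrete

end Fermat.Agent.TWP.GW
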