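import Fermat.Agent.TWP.GW.Ineq
import Fermat.Agent.TWP.PrimeChoice

/-!
# The Greenberg–Wiles inequality for `ad⁰` and `ad⁰ ⊗ det`

`gw_matrix` : the inequality for functions with values in `2 × 2` matrices over a finite
extension `k` of the coefficient field `F` of the arithmetic inputs.
-/

set_option autoImplicit false
set_option linter.unusedSectionVars false

namespace Fermat.Agent.TWP.GW

open Module Matrix Fermat.Agent.CFT Fermat.Agent.CFT.LC Fermat.Agent.CFT.PT

section Defs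

variable (F k : Type) [Field F] [Field k] [Algebra F k]

/-- trace zero matrices -/
def ad0 : Submodule k (Matrix (Fin 2) (Fin 2) k) := LinearMap.ker (Matrix.traceLinearMap (Fin 2) k k)

variable {k}

theorem mem_ad0 {X : Matrix (Fin 2) (Fin 2) k} : X ∈ ad0 k ↔ X.trace = 0 := by
  rw [ad0, LinearMap.mem_ker]
  rfl

theorem finrank_ad0 : finrank k (ad0 k) = 3 := by
  have h := LinearMap.finrank_range_add_finrank_ker (Matrix.traceLinearMap (Fin 2) k k)
  have h1 : LinearMap.range (Matrix.traceLinearMap (Fin 2) k k) = ⊤ := by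
    rw [LinearMap.range_eq_top]
    intro c
    exact ⟨Matrix.single 0 0 c, by simp⟩
  rw [h1, finrank_top, finrank_self, Module.finrank_matrix] at h
  simp only [Fintype.card_fin, finrank_self] at h
  unfold ad0
  omega

variable {G : Type} [Group G] (M : G →* Matrix (Fin 2) (Fin 2) k)

/-- The action of `g` on `ad`. -/
def adj (g : G) (X : Matrix (Fin 2) (Fin 2) k) : Matrix (Fin 2) (Fin 2) k := M g * X * M g⁻¹

theorem trace_adj (g : G) (X : Matrix (Fin 2) (Fin 2) k) : (adj M g X).trace = X.trace := by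
  rw [adj, Matrix.trace_mul_comm, ← mul_assoc, r_inv_mul, one_mul]

/-- The representation `ad⁰` with coefficients in `F`. -/
def adRep : Representation F G (ad0 k) where
  toFun g :=
    { toFun := fun X => ⟨adj M g X.1, by rw [mem_ad0, trace_adj]; exact mem_ad0.mp X.2⟩
      map_add' := fun X Y => Subtype.ext (by
        show M g * (X.1 + Y.1) * M g⁻¹ = M g * X.1 * M g⁻¹ + M g * Y.1 * M g⁻¹
        rw [mul_add, add_mul])
      map_smul' := fun c X => Subtype.ext (by
        show M g * (c • X.1) * M g⁻¹ = c • (M g * X.1 * M g⁻¹)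
        rw [mul_smul_comm, smul_mul_assoc]) }
  map_one' := by
    ext1 X
    refine Subtype.ext ?_
    show M 1 * X.1 * M 1⁻¹ = X.1
    rw [inv_one, map_one, one_mul, mul_one]
  map_mul' g h := by
    ext1 X
    refine Subtype.ext ?_
    show M (g * h) * X.1 * M (g * h)⁻¹ = M g * (M h * X.1 * M h⁻¹) * M g⁻¹
    rw [_root_.mul_inv_rev, map_mul, map_mul]
    simp only [mul_assoc]

/-- The representation `ad⁰ ⊗ det` with coefficients in `F`. -/
def twRep : Representation F G (ad0 k) where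
  toFun g :=
    { toFun := fun X => ⟨tw M g X.1, by rw [mem_ad0, trace_tw, mem_ad0.mp X.2, mul_zero]⟩
      map_add' := fun X Y => Subtype.ext (tw_add M g X.1 Y.1)
      map_smul' := fun c X => Subtype.ext (by
        show tw M g (c • X.1) = c • tw M g X.1
        simp only [tw, mul_smul_comm, smul_mul_assoc]
        rw [smul_comm]) }
  map_one' := by
    ext1 X
    exact Subtype.ext (tw_one M X.1)
  map_mul' g h := by
    ext1 X
    exact Subtype.ext (tw_mul M g h X.1)

@[simp] theorem adRep_apply_coe (g : G) (X : ad0 k) :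
    (adRep F M g X : Matrix (Fin 2) (Fin 2) k) = adj M g X := rfl

@[simp] theorem twRep_apply_coe (g : G) (X : ad0 k) :
    (twRep F M g X : Matrix (Fin 2) (Fin 2) k) = tw M g X := rfl

theorem tw_comp {H : Type} [Group H] (f : H →* G) (h : H) (X : Matrix (Fin 2) (Fin 2) k) :
    tw (M.comp f) h X = tw M (f h) X := by
  simp only [tw, MonoidHom.comp_apply, map_inv]

theorem adj_comp {H : Type} [Group H] (f : H →* G) (h : H) (X : Matrix (Fin 2) (Fin 2) k) :
    adj (M.comp f) h X = adj M (f h) X := by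
  simp only [adj, MonoidHom.comp_apply, map_inv]

theorem twRep_comp {H : Type} [Group H] (f : H →* G) :
    (twRep F M).comp f = twRep F (M.comp f) :=
  MonoidHom.ext fun h => LinearMap.ext fun X => Subtype.ext (tw_comp M f h X.1).symm

theorem adRep_comp {H : Type} [Group H] (f : H →* G) :
    (adRep F M).comp f = adRep F (M.comp f) :=
  MonoidHom.ext fun h => LinearMap.ext fun X => Subtype.ext (adj_comp M f h X.1).symm

variable {F}

/-- The duality map. -/
def dmap (τ : k →ₗ[F] F) : ad0 k →ₗ[F] Dual F (ad0 k) where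
  toFun X :=
    { toFun := fun Y => τ (X.1 * Y.1).trace
      map_add' := fun Y Z => by
        show τ (X.1 * (Y.1 + Z.1)).trace = _
        rw [mul_add, Matrix.trace_add, map_add]
      map_smul' := fun c Y => by
        show τ (X.1 * (c • Y.1)).trace = _
        rw [mul_smul_comm, Matrix.trace_smul, map_smul]
        rfl }
  map_add' X Y := by
    ext Z
    show τ ((X.1 + Y.1) * Z.1).trace = _
    rw [add_mul, Matrix.trace_add, map_add]
    rfl
  map_smul' c X := by
    ext Z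
    show τ ((c • X.1) * Z.1).trace = _
    rw [smul_mul_assoc, Matrix.trace_smul, map_smul]
    rfl

@[simp] theorem dmap_apply (τ : k →ₗ[F] F) (X Y : ad0 k) :
    dmap τ X Y = τ (X.1 * Y.1).trace := rfl

theorem dmap_injective {τ : k →ₗ[F] F} (hτ : τ ≠ 0) (h2 : (2 : k) ≠ 0) :
    Function.Injective (dmap τ) := by
  rw [← LinearMap.ker_eq_bot, LinearMap.ker_eq_bot']
  intro X hX
  -- `tr (X Y) = 0` for all `Y` of trace zero
  have h1 : ∀ Y : Matrix (Fin 2) (Fin 2) k, Y.trace = 0 → (X.1 * Y).trace = 0 := by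
    intro Y hY
    by_contra hne
    apply hτ
    ext c
    have h3 : ((c * (X.1 * Y).trace⁻¹) • Y).trace = 0 := by
      rw [Matrix.trace_smul, hY, smul_zero]
    have h4 := LinearMap.congr_fun hX ⟨(c * (X.1 * Y).trace⁻¹) • Y, mem_ad0.mpr h3⟩
    rw [dmap_apply, LinearMap.zero_apply] at h4
    rw [mul_smul_comm, Matrix.trace_smul, smul_eq_mul, mul_assoc, inv_mul_cancel₀ hne,
      mul_one] at h4
    rw [h4, LinearMap.zero_apply]
  have h2' := mem_ad0.mp X.2
  have e1 := h1 !![0, 1; 0, 0] (by simp [Matrix.trace_fin_two])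
  have e2 := h1 !![0, 0; 1, 0] (by simp [Matrix.trace_fin_two])
  have e3 := h1 !![1, 0; 0, -1] (by simp [Matrix.trace_fin_two])
  rw [Matrix.trace_fin_two] at e1 e2 e3 h2'
  simp only [Matrix.mul_apply, Fin.sum_univ_two, Matrix.of_apply, Matrix.cons_val', Matrix.cons_val_zero,
    Matrix.cons_val_one, Matrix.cons_val_fin_one] at e1 e2 e3
  simp only [mul_zero, mul_one, add_zero, zero_add, mul_neg] at e1 e2 e3
  have e4 : (2 : k) * X.1 0 0 = 0 := by linear_combination h2' + e3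
  have e5 : X.1 0 0 = 0 := (mul_eq_zero.mp e4).resolve_left h2
  refine Subtype.ext ?_
  ext i j
  fin_cases i <;> fin_cases j
  · exact e5
  · exact e2
  · exact e1
  · show X.1 1 1 = 0
    rw [e5, zero_add] at h2'
    exact h2'

variable [FiniteDimensional F k]

instance : FiniteDimensional F (ad0 k) := Module.Finite.trans (R := F) k (ad0 k)

/-- The duality isomorphism. -/
noncomputable def dequiv {τ : k →ₗ[F] F} (hτ : τ ≠ 0) (h2 : (2 : k) ≠ 0) :
    ad0 k ≃ₗ[F] Dual F (ad0 k) :=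
  LinearEquiv.ofInjectiveOfFinrankEq (dmap τ) (dmap_injective hτ h2)
    Subspace.dual_finrank_eq.symm

@[simp] theorem dequiv_apply {τ : k →ₗ[F] F} (hτ : τ ≠ 0) (h2 : (2 : k) ≠ 0) (X : ad0 k) :
    dequiv hτ h2 X = dmap τ X := rfl

theorem dmap_adRep {χ : G →* Fˣ} (hχ : ∀ g, algebraMap F k (χ g) = (M g).det)
    (τ : k →ₗ[F] F) (g : G) (X : ad0 k) :
    dmap τ (adRep F M g X) = dtw (twRep F M) χ g (dmap τ X) := by
  ext Y
  rw [dtw_apply_apply, dmap_apply, dmap_apply, adRep_apply_coe, twRep_apply_coe]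
  have h1 : (χ g : F) * τ (X.1 * tw M g⁻¹ Y.1).trace =
      τ ((χ g : F) • (X.1 * tw M g⁻¹ Y.1).trace) := by
    rw [map_smul, smul_eq_mul]
  rw [h1]
  congr 1
  rw [Algebra.smul_def, hχ, tw, inv_inv, mul_smul_comm, Matrix.trace_smul, smul_eq_mul, ← mul_assoc,
    ← Matrix.det_mul, r_mul_inv, Matrix.det_one, one_mul, adj]
  rw [mul_assoc, mul_assoc, Matrix.trace_mul_comm]
  simp only [mul_assoc]

end Defs

section Functions

variable {k : Type} [Field k] {G : Type} [Group G] (M : G →* Matrix (Fin 2) (Fin 2) k) (L : Lvl G)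

/-- Level-constant cocycles with values in `ad⁰`. -/
def zAd : Submodule k (G → Matrix (Fin 2) (Fin 2) k) where
  carrier := {f | (∀ g, (f g).trace = 0) ∧ (∀ g h, f (g * h) = f g + adj M g (f h)) ∧ IsLC₁ L f}
  zero_mem' := ⟨fun g => by simp, fun g h => by simp [adj], isLC₁_const 0⟩
  add_mem' := fun {a b} ha hb => ⟨fun g => by
      rw [Pi.add_apply, Matrix.trace_add, ha.1, hb.1, add_zero], fun g h => by
      simp only [Pi.add_apply, ha.2.1 g h, hb.2.1 g h, adj, mul_add, add_mul]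
      abel, ha.2.2.add hb.2.2⟩
  smul_mem' := fun c a ha => ⟨fun g => by
      rw [Pi.smul_apply, Matrix.trace_smul, ha.1, smul_zero], fun g h => by
      simp only [Pi.smul_apply, ha.2.1 g h, adj, smul_add, mul_smul_comm, smul_mul_assoc],
      ha.2.2.comp (c • ·)⟩

/-- Level-constant cocycles with values in `ad⁰ ⊗ det`. -/
def zTw : Submodule k (G → Matrix (Fin 2) (Fin 2) k) where
  carrier := {f | (∀ g, (f g).trace = 0) ∧ (∀ g h, f (g * h) = f g + tw M g (f h)) ∧ IsLC₁ L f}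
  zero_mem' := ⟨fun g => by simp, fun g h => by simp [tw], isLC₁_const 0⟩
  add_mem' := fun {a b} ha hb => ⟨fun g => by
      rw [Pi.add_apply, Matrix.trace_add, ha.1, hb.1, add_zero], fun g h => by
      simp only [Pi.add_apply, ha.2.1 g h, hb.2.1 g h, tw_add]
      abel, ha.2.2.add hb.2.2⟩
  smul_mem' := fun c a ha => ⟨fun g => by
      rw [Pi.smul_apply, Matrix.trace_smul, ha.1, smul_zero], fun g h => by
      simp only [Pi.smul_apply, ha.2.1 g h, smul_add, tw_smul],
      ha.2.2.comp (c • ·)⟩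

variable {M L}

theorem mem_zAd {f : G → Matrix (Fin 2) (Fin 2) k} : f ∈ zAd M L ↔
    (∀ g, (f g).trace = 0) ∧ (∀ g h, f (g * h) = f g + adj M g (f h)) ∧ IsLC₁ L f := Iff.rfl

theorem mem_zTw {f : G → Matrix (Fin 2) (Fin 2) k} : f ∈ zTw M L ↔
    (∀ g, (f g).trace = 0) ∧ (∀ g h, f (g * h) = f g + tw M g (f h)) ∧ IsLC₁ L f := Iff.rfl

/-- The inclusion `ad⁰ ⊂ M₂` on functions. -/
def incl (k : Type) [Field k] (G : Type) :
    (G → ad0 k) →ₗ[k] (G → Matrix (Fin 2) (Fin 2) k) := (ad0 k).subtype.compLeft G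

@[simp] theorem incl_apply {G : Type} (f : G → ad0 k) (g : G) :
    incl k G f g = (f g : Matrix (Fin 2) (Fin 2) k) := rfl

theorem incl_injective {G : Type} : Function.Injective (incl k G) := fun _ _ h =>
  funext fun g => Subtype.ext (congrFun h g)

theorem exists_incl {G : Type} {f : G → Matrix (Fin 2) (Fin 2) k} (h : ∀ g, (f g).trace = 0) :
    ∃ f', incl k G f' = f := ⟨fun g => ⟨f g, mem_ad0.mpr (h g)⟩, rfl⟩

variable {F : Type} [Field F] [Algebra F k]

theorem isLC₁_incl {f : G → ad0 k} : IsLC₁ L (incl k G f) ↔ IsLC₁ L f :=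
  ⟨fun ⟨N, hN, h⟩ => ⟨N, hN, fun g s hs => Subtype.ext (h g s hs)⟩,
    fun ⟨N, hN, h⟩ => ⟨N, hN, fun g s hs => congrArg Subtype.val (h g s hs)⟩⟩

theorem incl_mem_zAd {f : G → ad0 k} : incl k G f ∈ zAd M L ↔ f ∈ Z1 (adRep F M) L := by
  rw [mem_zAd, mem_Z1, isLC₁_incl]
  constructor
  · rintro ⟨-, h1, h2⟩
    refine ⟨fun g h => Subtype.ext ?_, h2⟩
    have := h1 g h
    rw [add_comm] at this
    exact this
  · rintro ⟨h1, h2⟩
    refine ⟨fun g => mem_ad0.mp (f g).2, fun g h => ?_, h2⟩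
    have := congrArg Subtype.val (h1 g h)
    rw [add_comm]
    exact this

theorem incl_mem_zTw {f : G → ad0 k} : incl k G f ∈ zTw M L ↔ f ∈ Z1 (twRep F M) L := by
  rw [mem_zTw, mem_Z1, isLC₁_incl]
  constructor
  · rintro ⟨-, h1, h2⟩
    refine ⟨fun g h => Subtype.ext ?_, h2⟩
    have := h1 g h
    rw [add_comm] at this
    exact this
  · rintro ⟨h1, h2⟩
    refine ⟨fun g => mem_ad0.mp (f g).2, fun g h => ?_, h2⟩
    have := congrArg Subtype.val (h1 g h)
    rw [add_comm]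
    exact this

/-- The duality isomorphism on functions. -/
noncomputable def dfun [FiniteDimensional F k] {τ : k →ₗ[F] F} (hτ : τ ≠ 0) (h2 : (2 : k) ≠ 0)
    (G : Type) : (G → ad0 k) →ₗ[F] (G → Dual F (ad0 k)) :=
  (dequiv hτ h2 : ad0 k →ₗ[F] Dual F (ad0 k)).compLeft G

variable [FiniteDimensional F k] {τ : k →ₗ[F] F} (hτ : τ ≠ 0) (h2 : (2 : k) ≠ 0)

@[simp] theorem dfun_apply {G : Type} (f : G → ad0 k) (g : G) :
    dfun hτ h2 G f g = dequiv hτ h2 (f g) := rfl

theorem dfun_injective {G : Type} : Function.Injective (dfun hτ h2 G) := fun _ _ h =>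
  funext fun g => (dequiv hτ h2).injective (congrFun h g)

theorem dfun_surjective {G : Type} : Function.Surjective (dfun hτ h2 G) := fun f =>
  ⟨fun g => (dequiv hτ h2).symm (f g), funext fun g => (dequiv hτ h2).apply_symm_apply (f g)⟩

theorem dequiv_adRep {χ : G →* Fˣ} (hχ : ∀ g, algebraMap F k (χ g) = (M g).det) (g : G)
    (X : ad0 k) :
    dequiv hτ h2 (adRep F M g X) = dtw (twRep F M) χ g (dequiv hτ h2 X) :=
  dmap_adRep M hχ τ g X

theorem dfun_mem_Z1 {χ : G →* Fˣ} (hχ : ∀ g, algebraMap F k (χ g) = (M g).det)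
    {f : G → ad0 k} :
    dfun hτ h2 G f ∈ Z1 (dtw (twRep F M) χ) L ↔ f ∈ Z1 (adRep F M) L := by
  rw [mem_Z1, mem_Z1]
  refine and_congr ?_ ?_
  · refine forall₂_congr fun g h => ?_
    rw [dfun_apply, dfun_apply, dfun_apply, ← dequiv_adRep hτ h2 hχ, ← map_add]
    exact (dequiv hτ h2).injective.eq_iff
  · constructor
    · rintro ⟨N, hN, h⟩
      exact ⟨N, hN, fun g s hs => (dequiv hτ h2).injective (h g s hs)⟩
    · rintro ⟨N, hN, h⟩
      exact ⟨N, hN, fun g s hs => congrArg (dequiv hτ h2) (h g s hs)⟩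

end Functions

theorem finrank_restrictScalars' {F k V : Type} [Field F] [Field k] [Algebra F k]
    [FiniteDimensional F k] [AddCommGroup V] [Module k V] [Module F V] [IsScalarTower F k V]
    (X : Submodule k V) :
    finrank F (X.restrictScalars F) = finrank F k * finrank k X :=
  (Module.finrank_mul_finrank F k X).symm

section Main

variable {F k : Type} [Field F] [Field k] [Algebra F k] [FiniteDimensional F k]
  {G : Type} [Group G] {M : G →* Matrix (Fin 2) (Fin 2) k} {L : Lvl G} {χ : G →* Fˣ}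
  {ι : Type} [Fintype ι] {Γ : ι → Type} [∀ v, Group (Γ v)] {LΓ : ∀ v, Lvl (Γ v)}
  {r : ∀ v, Γ v →* G} {hr : ∀ v, (LΓ v).Cont L (r v)} {δinf : ℕ}
  (I : Inputs L χ LΓ r hr (twRep F M) δinf)
  {τ : k →ₗ[F] F} (hτ : τ ≠ 0) (h2 : (2 : k) ≠ 0) (hχ : ∀ g, algebraMap F k (χ g) = (M g).det)

/-- Transport of a space of functions with values in matrices. -/
noncomputable def toU {H : Type} (U : Submodule k (H → Matrix (Fin 2) (Fin 2) k)) :
    Submodule F (H → Dual F (ad0 k)) :=
  ((U.comap (incl k H)).restrictScalars F).map (dfun hτ h2 H)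

variable {hτ h2}

theorem mem_toU {H : Type} {U : Submodule k (H → Matrix (Fin 2) (Fin 2) k)}
    {f : H → Dual F (ad0 k)} : f ∈ toU hτ h2 U ↔ ∃ u : H → ad0 k, incl k H u ∈ U ∧
      dfun hτ h2 H u = f := Iff.rfl

theorem dfun_mem_toU {H : Type} {U : Submodule k (H → Matrix (Fin 2) (Fin 2) k)}
    {u : H → ad0 k} : dfun hτ h2 H u ∈ toU hτ h2 U ↔ incl k H u ∈ U := by
  rw [mem_toU]
  constructor
  · rintro ⟨u', h, h'⟩
    rwa [← dfun_injective hτ h2 h']
  · intro h
    exact ⟨u, h, rfl⟩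

omit hτ h2 in
theorem finrank_fU {H : Type} {U : Submodule k (H → Matrix (Fin 2) (Fin 2) k)}
    (hU : ∀ f ∈ U, ∀ g, (f g).trace = 0) :
    finrank F ((U.comap (incl k H)).restrictScalars F) = finrank F k * finrank k U := by
  have h2 := finrank_restrictScalars' (F := F) (U.comap (incl k H))
  have h3 : (U.comap (incl k H)).map (incl k H) = U := by
    ext f
    constructor
    · rintro ⟨u, hu, rfl⟩
      exact hu
    · intro hf
      obtain ⟨u, rfl⟩ := exists_incl (hU f hf)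
      exact ⟨u, hf, rfl⟩
  have h4 : finrank k U = finrank k (U.comap (incl k H)) := by
    rw [← finrank_map_of_inj (incl k H) incl_injective (U.comap (incl k H)), h3]
  rw [h2, h4]

theorem finrank_toU {H : Type} {U : Submodule k (H → Matrix (Fin 2) (Fin 2) k)}
    (hU : ∀ f ∈ U, ∀ g, (f g).trace = 0) :
    finrank F (toU hτ h2 U) = finrank F k * finrank k U := by
  rw [← finrank_fU hU]
  exact finrank_map_of_inj _ (dfun_injective hτ h2) _

variable (hτ h2)

/-- `k`-balancedness of the local pairing. -/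
theorem pair_smul (v : ι) (c : k) {a : Γ v → ad0 k} {y : Γ v → ad0 k}
    (ha : a ∈ Z1 ((twRep F M).comp (r v)) (LΓ v))
    (hca : c • a ∈ Z1 ((twRep F M).comp (r v)) (LΓ v))
    (hy : dfun hτ h2 _ y ∈ Z1 (dtw ((twRep F M).comp (r v)) (χ.comp (r v))) (LΓ v))
    (hcy : dfun hτ h2 _ (c • y) ∈ Z1 (dtw ((twRep F M).comp (r v)) (χ.comp (r v))) (LΓ v)) :
    I.pair v (H1.mk ((twRep F M).comp (r v)) (LΓ v) ⟨c • a, hca⟩)
        (H1.mk (dtw ((twRep F M).comp (r v)) (χ.comp (r v))) (LΓ v) ⟨dfun hτ h2 _ y, hy⟩) =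
      I.pair v (H1.mk ((twRep F M).comp (r v)) (LΓ v) ⟨a, ha⟩)
        (H1.mk (dtw ((twRep F M).comp (r v)) (χ.comp (r v))) (LΓ v)
          ⟨dfun hτ h2 _ (c • y), hcy⟩) := by
  unfold Inputs.pair pair11
  rw [LinearMap.compr₂_apply, LinearMap.compr₂_apply, cup11_mk, cup11_mk]
  congr 2
  refine Subtype.ext (funext fun q => ?_)
  rw [cupZ11_apply_coe, cupZ11_apply_coe, cupC11_apply, cupC11_apply]
  show evp F (ad0 k) (c • a q.1) (dtw ((twRep F M).comp (r v)) (χ.comp (r v)) q.1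
      (dequiv hτ h2 (y q.2))) =
    evp F (ad0 k) (a q.1) (dtw ((twRep F M).comp (r v)) (χ.comp (r v)) q.1
      (dequiv hτ h2 (c • y q.2)))
  rw [evp_apply, evp_apply, dtw_apply_apply, dtw_apply_apply, dequiv_apply, dequiv_apply,
    dmap_apply, dmap_apply]
  congr 3
  show (y q.2).1 * tw M (r v q.1⁻¹) (c • (a q.1).1) =
    (c • (y q.2).1) * tw M (r v q.1⁻¹) (a q.1).1
  rw [tw_smul, mul_smul_comm, smul_mul_assoc]

omit [FiniteDimensional F k] in
theorem incl_mem_zTw_comp {H : Type} [Group H] {LH : Lvl H} (f : H →* G) {a : H → ad0 k} :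
    incl k _ a ∈ zTw (M.comp f) LH ↔ a ∈ Z1 ((twRep F M).comp f) LH := by
  rw [twRep_comp]
  exact incl_mem_zTw

include hχ in
theorem dfun_mem_Z1_comp {H : Type} [Group H] {LH : Lvl H} (f : H →* G) {u : H → ad0 k} :
    dfun hτ h2 _ u ∈ Z1 (dtw ((twRep F M).comp f) (χ.comp f)) LH ↔
      incl k _ u ∈ zAd (M.comp f) LH := by
  rw [twRep_comp, dfun_mem_Z1 hτ h2 (M := M.comp f) (fun g => hχ _)]
  exact incl_mem_zAd.symm

include I hχ in
theorem smul_mem_perp (v : ι) (U : Submodule k (Γ v → Matrix (Fin 2) (Fin 2) k)) (c : k)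
    {a : Γ v → ad0 k} (ha : a ∈ I.perp v (toU hτ h2 U)) : c • a ∈ I.perp v (toU hτ h2 U) := by
  rw [Inputs.mem_perp] at ha ⊢
  obtain ⟨ha, h⟩ := ha
  have hca : c • a ∈ Z1 ((twRep F M).comp (r v)) (LΓ v) := by
    rw [← incl_mem_zTw_comp, map_smul]
    exact (zTw (M.comp (r v)) (LΓ v)).smul_mem c ((incl_mem_zTw_comp _).mpr ha)
  refine ⟨hca, fun y hy hyU => ?_⟩
  obtain ⟨u, hu, rfl⟩ := mem_toU.mp hyU
  have hcy : dfun hτ h2 _ (c • u) ∈ Z1 (dtw ((twRep F M).comp (r v)) (χ.comp (r v))) (LΓ v) := by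
    have h3 := (dfun_mem_Z1_comp hτ h2 hχ (r v)).mp hy
    have h4 := (zAd (M.comp (r v)) (LΓ v)).smul_mem c h3
    rw [← map_smul] at h4
    exact (dfun_mem_Z1_comp hτ h2 hχ (r v)).mpr h4
  have h5 : incl k (Γ v) (c • u) ∈ U := by
    rw [map_smul]
    exact U.smul_mem c hu
  exact (pair_smul I hτ h2 v c ha hca hy hcy).trans (h _ hcy (dfun_mem_toU.mpr h5))

/-- The annihilator of a space of local cocycles, as a space of matrix valued functions. -/
def perpM (v : ι) (U : Submodule k (Γ v → Matrix (Fin 2) (Fin 2) k)) :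
    Submodule k (Γ v → Matrix (Fin 2) (Fin 2) k) where
  carrier := {ψ | ∃ a : Γ v → ad0 k, a ∈ I.perp v (toU hτ h2 U) ∧ incl k _ a = ψ}
  zero_mem' := ⟨0, Submodule.zero_mem _, map_zero _⟩
  add_mem' := by
    rintro _ _ ⟨a, ha, rfl⟩ ⟨b, hb, rfl⟩
    exact ⟨a + b, Submodule.add_mem _ ha hb, map_add _ _ _⟩
  smul_mem' := by
    rintro c _ ⟨a, ha, rfl⟩
    exact ⟨c • a, smul_mem_perp I hτ h2 hχ v U c ha, map_smul _ _ _⟩

theorem mem_perpM {v : ι} {U : Submodule k (Γ v → Matrix (Fin 2) (Fin 2) k)}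
    {ψ : Γ v → Matrix (Fin 2) (Fin 2) k} : ψ ∈ perpM I hτ h2 hχ v U ↔
      ∃ a : Γ v → ad0 k, a ∈ I.perp v (toU hτ h2 U) ∧ incl k _ a = ψ := Iff.rfl

theorem incl_mem_perpM {v : ι} {U : Submodule k (Γ v → Matrix (Fin 2) (Fin 2) k)}
    {a : Γ v → ad0 k} : incl k _ a ∈ perpM I hτ h2 hχ v U ↔ a ∈ I.perp v (toU hτ h2 U) := by
  rw [mem_perpM]
  constructor
  · rintro ⟨a', h, h'⟩
    rwa [← incl_injective h']
  · intro h
    exact ⟨a, h, rfl⟩

/-- Selmer cocycles with values in `ad⁰`. -/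
noncomputable def selAd (L : Lvl G) (M : G →* Matrix (Fin 2) (Fin 2) k) (r : ∀ v, Γ v →* G)
    (U : ∀ v, Submodule k (Γ v → Matrix (Fin 2) (Fin 2) k)) :
    Submodule k (G → Matrix (Fin 2) (Fin 2) k) :=
  zAd M L ⊓ ⨅ v, (U v).comap (LinearMap.funLeft k _ (r v))

/-- Selmer cocycles with values in `ad⁰ ⊗ det`. -/
noncomputable def selTw (L : Lvl G) (M : G →* Matrix (Fin 2) (Fin 2) k) (r : ∀ v, Γ v →* G)
    (U : ∀ v, Submodule k (Γ v → Matrix (Fin 2) (Fin 2) k)) :
    Submodule k (G → Matrix (Fin 2) (Fin 2) k) :=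
  zTw M L ⊓ ⨅ v, (U v).comap (LinearMap.funLeft k _ (r v))

omit [Fintype ι] in
theorem mem_selAd {U : ∀ v, Submodule k (Γ v → Matrix (Fin 2) (Fin 2) k)}
    {f : G → Matrix (Fin 2) (Fin 2) k} :
    f ∈ selAd L M r U ↔ f ∈ zAd M L ∧ ∀ v, f ∘ r v ∈ U v := by
  rw [selAd, Submodule.mem_inf, Submodule.mem_iInf]
  rfl

omit [Fintype ι] in
theorem mem_selTw {U : ∀ v, Submodule k (Γ v → Matrix (Fin 2) (Fin 2) k)}
    {f : G → Matrix (Fin 2) (Fin 2) k} :
    f ∈ selTw L M r U ↔ f ∈ zTw M L ∧ ∀ v, f ∘ r v ∈ U v := by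
  rw [selTw, Submodule.mem_inf, Submodule.mem_iInf]
  rfl

include hχ in
theorem zselD_eq_toU (U : ∀ v, Submodule k (Γ v → Matrix (Fin 2) (Fin 2) k)) :
    zselD L χ r (twRep F M) (fun v => toU hτ h2 (U v)) = toU hτ h2 (selAd L M r U) := by
  ext f
  obtain ⟨u, rfl⟩ := dfun_surjective hτ h2 f
  rw [mem_zselD, dfun_mem_toU, mem_selAd, dfun_mem_Z1 hτ h2 hχ, ← incl_mem_zAd (F := F)]
  refine and_congr Iff.rfl (forall_congr' fun v => ?_)
  exact dfun_mem_toU (u := u ∘ r v)

theorem zselN_eq (U : ∀ v, Submodule k (Γ v → Matrix (Fin 2) (Fin 2) k)) :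
    zselN L r (twRep F M) (fun v => I.perp v (toU hτ h2 (U v))) =
      ((selTw L M r fun v => perpM I hτ h2 hχ v (U v)).comap (incl k G)).restrictScalars F := by
  ext f
  rw [mem_zselN, Submodule.restrictScalars_mem, Submodule.mem_comap, mem_selTw,
    ← incl_mem_zTw (F := F)]
  refine and_congr Iff.rfl (forall_congr' fun v => ?_)
  exact (incl_mem_perpM I hτ h2 hχ (a := f ∘ r v)).symm

/-- **Greenberg–Wiles inequality** for `ad⁰`, cocycle form. -/
theorem gw_matrix (hδ : δinf = finrank F k)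
    (U : ∀ v, Submodule k (Γ v → Matrix (Fin 2) (Fin 2) k))
    (hB : ∀ v, ∀ X : Matrix (Fin 2) (Fin 2) k, X.trace = 0 →
      (fun g => adj M (r v g) X - X) ∈ U v)
    (hZ : ∀ v, U v ≤ zAd (M.comp (r v)) (LΓ v)) :
    finrank k (selAd L M r U) + 1 + 3 * Fintype.card ι ≤
      ∑ v, finrank k (U v) + finrank k (selTw L M r fun v => perpM I hτ h2 hχ v (U v)) := by
  have key := I.gw_cocycle (fun v => toU hτ h2 (U v)) (fun v => ?_) (fun v => ?_)
  · rw [zselD_eq_toU hτ h2 hχ, zselN_eq I hτ h2 hχ,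
      finrank_toU (fun f hf g => (mem_selAd.mp hf).1.1 g),
      finrank_fU (fun f hf g => (mem_selTw.mp hf).1.1 g),
      Finset.sum_congr rfl (fun v _ => finrank_toU (hτ := hτ) (h2 := h2)
        (fun f hf g => (hZ v hf).1 g)), ← Finset.mul_sum] at key
    have h3 : finrank F (ad0 k) = finrank F k * 3 := by
      rw [← finrank_ad0 (k := k), Module.finrank_mul_finrank F k (ad0 k)]
    rw [h3] at key
    have hpos : 0 < finrank F k := Module.finrank_pos
    refine Nat.le_of_mul_le_mul_left ?_ hpos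
    calc _ = finrank F k * finrank k (selAd L M r U) + finrank F k +
          Fintype.card ι * (finrank F k * 3) := by ring
      _ ≤ finrank F k * finrank k (selAd L M r U) + δinf +
          Fintype.card ι * (finrank F k * 3) := by gcongr; exact hδ.ge
      _ ≤ _ := key
      _ = _ := by ring
  · intro f hf
    obtain ⟨w, hw⟩ := (mem_B1 _).mp hf
    obtain ⟨X, rfl⟩ := (dequiv hτ h2).surjective w
    refine mem_toU.mpr ⟨fun g => adRep F (M.comp (r v)) g X - X, ?_, ?_⟩
    · have h5 := hB v X.1 (mem_ad0.mp X.2)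
      have h6 : incl k (Γ v) (fun g => adRep F (M.comp (r v)) g X - X) =
          fun g => adj M (r v g) X.1 - X.1 := by
        funext g
        show adj (M.comp (r v)) g X.1 - X.1 = _
        rw [adj_comp]
      rw [h6]
      exact h5
    · funext g
      rw [hw g, dfun_apply, map_sub, dequiv_adRep hτ h2 (χ := χ.comp (r v)) (fun g => hχ _),
        twRep_comp]
  · intro f hf
    obtain ⟨u, hu, rfl⟩ := mem_toU.mp hf
    exact (dfun_mem_Z1_comp hτ h2 hχ (r v)).mpr (hZ v hu)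

end Main

end Fermat.Agent.TWP.GW
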