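import Fermat.Agent.TWP.GW.Count
import Fermat.Agent.TWP.SelmerCond

/-!
# Taylor–Wiles primes and the bound for Selmer cocycles
-/

set_option autoImplicit false
set_option linter.unusedSectionVars false

namespace Fermat.Agent.TWP.GW

open Module Matrix Pointwise Polynomial Fermat.Agent.CFT Fermat.Agent.CFT.LC Fermat.Agent.CFT.PT
  ExtCitation

local notation "ℚbar" => AlgebraicClosure ℚ
local notation "ΓQ" => (AlgebraicClosure ℚ ≃ₐ[ℚ] AlgebraicClosure ℚ)

section Finite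

variable {F k : Type} [Field F] [Field k] [Algebra F k] [FiniteDimensional F k]

theorem finite_of_comap {H : Type} {X : Submodule k (H → Matrix (Fin 2) (Fin 2) k)}
    (hX : ∀ f ∈ X, ∀ g, (f g).trace = 0)
    (hfin : Module.Finite F ((X.comap (incl k H)).restrictScalars F)) : Module.Finite k X := by
  have h0 : Module.Finite F ↥(X.comap (incl k H)) := hfin
  have h1 : Module.Finite k (X.comap (incl k H)) :=
    Module.Finite.of_restrictScalars_finite F k (X.comap (incl k H))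
  have h3 : (X.comap (incl k H)).map (incl k H) = X := by
    ext f
    constructor
    · rintro ⟨u, hu, rfl⟩
      exact hu
    · intro hf
      obtain ⟨u, rfl⟩ := exists_incl (hX f hf)
      exact ⟨u, hf, rfl⟩
  rw [← h3]
  exact Module.Finite.map _ _

variable {M : ΓQ →* Matrix (Fin 2) (Fin 2) k} {χ : ΓQ →* Fˣ} {S : Finset Nat.Primes} {δ : ℕ}

theorem finite_zTw (I : GWI M χ S δ) : Module.Finite k (zTw M (unram S)) := by
  refine finite_of_comap (F := F) (fun f hf => hf.1) ?_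
  have := I.fin
  have h1 := finite_Z1 (L := unram S) I.smooth
  have h2 : ((zTw M (unram S)).comap (incl k ΓQ)).restrictScalars F =
      Z1 (twRep F M) (unram S) := by
    ext f
    exact incl_mem_zTw
  rw [h2]
  exact h1

theorem finite_zAd (I : GWI M χ S δ) {τ : k →ₗ[F] F} (hτ : τ ≠ 0) (h2 : (2 : k) ≠ 0)
    (hχ : ∀ g, algebraMap F k (χ g) = (M g).det) : Module.Finite k (zAd M (unram S)) := by
  refine finite_of_comap (F := F) (fun f hf => hf.1) ?_
  have := I.fin'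
  have h1 := finite_Z1 (L := unram S) I.smooth_dtw
  have h3 : (((zAd M (unram S)).comap (incl k ΓQ)).restrictScalars F).map (dfun hτ h2 ΓQ) =
      Z1 (dtw (twRep F M) χ) (unram S) := by
    ext f
    constructor
    · rintro ⟨u, hu, rfl⟩
      exact (dfun_mem_Z1 hτ h2 hχ).mpr (incl_mem_zAd.mp hu)
    · intro hf
      obtain ⟨u, rfl⟩ := dfun_surjective hτ h2 f
      exact ⟨u, incl_mem_zAd.mpr ((dfun_mem_Z1 hτ h2 hχ).mp hf), rfl⟩
  rw [← h3] at h1
  exact Module.Finite.equiv (Submodule.equivMapOfInjective (dfun hτ h2 ΓQ)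
    (dfun_injective hτ h2) (((zAd M (unram S)).comap (incl k ΓQ)).restrictScalars F)).symm

end Finite

section Glue

variable {k : Type} [Field k] {M : ΓQ →* Matrix (Fin 2) (Fin 2) k}

theorem locConst_iff {X : Type} {f : ΓQ → X} : LocConst f ↔ IsLC₁ (krull ℚ ℚbar) f := by
  rw [isLC₁_iff_periods, isOpen_krull_iff]
  constructor
  · rintro ⟨L, hL, h⟩
    exact ⟨L, hL, fun s hs g => h g s fun x hx =>
      (IntermediateField.mem_fixingSubgroup_iff _ _).mp hs x hx⟩
  · rintro ⟨L, hL, h⟩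
    exact ⟨L, hL, fun g s hs => h ((IntermediateField.mem_fixingSubgroup_iff _ _).mpr hs) g⟩

theorem isLC₁_unram_mono {S S' : Finset Nat.Primes} (h : S ⊆ S') {X : Type} {f : ΓQ → X}
    (hf : IsLC₁ (unram S) f) : IsLC₁ (unram S') f := by
  rw [isLC₁_unram_iff] at hf ⊢
  exact ⟨hf.1, fun q hq => hf.2 q fun hq' => hq (h hq')⟩

theorem restrict_mem_zD {a : ΓQ → Matrix (Fin 2) (Fin 2) k} (ha : a ∈ zAd M (krull ℚ ℚbar))
    {q : Nat.Primes} : (fun d : Dq q => a d) ∈ zD M q := by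
  obtain ⟨h1, h2, N, hN, h3⟩ := ha
  refine ⟨fun g => h1 g, fun g h => ?_, _, ⟨N, hN, rfl⟩, fun d s hs => h3 d s hs⟩
  rw [adj_subtype]
  exact h2 g h

/-- A local condition at `q` of dimension at most `c`. -/
def HasLocal (M : ΓQ →* Matrix (Fin 2) (Fin 2) k) (q : Nat.Primes) (c : ℕ)
    (Q : (ΓQ → Matrix (Fin 2) (Fin 2) k) → Prop) : Prop :=
  ∃ L : Submodule k (Dq q → Matrix (Fin 2) (Fin 2) k), L ≤ zD M q ∧
    (∀ X : Matrix (Fin 2) (Fin 2) k, X.trace = 0 → (fun d : Dq q => adj M d X - X) ∈ L) ∧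
    finrank k L ≤ c ∧
    ∀ a ∈ zAd M (krull ℚ ℚbar), Q a → (fun d : Dq q => a d) ∈ L

/-- The local condition at a prime `q ≠ p` of `Smin`. -/
def CobInertia (M : ΓQ →* Matrix (Fin 2) (Fin 2) k) (q : Nat.Primes)
    (a : ΓQ → Matrix (Fin 2) (Fin 2) k) : Prop :=
  ∃ X : Matrix (Fin 2) (Fin 2) k, X.trace = 0 ∧
    ∀ σ ∈ (primeLocalPlace q).inertiaSubgroupIn ℚ, a σ = adj M σ X - X

end Glue

section Main

variable {k : Type} [Field k] [Finite k] {p : ℕ} [Fact p.Prime] {ρbar : ResidualGaloisRep k}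
  {M : ΓQ →* Matrix (Fin 2) (Fin 2) k}

theorem charP_of_det (hdet : (GaloisRepAdic.ofResidualGaloisRep ρbar).DetIsCyclotomic p) :
    CharP k p := by
  have hp : (p : k) = 0 := by
    have := hdet.1
    rwa [IsLocalRing.maximalIdeal_eq_bot, Ideal.mem_bot] at this
  exact (CharP.charP_iff_prime_eq_zero (Fact.out : p.Prime)).mpr hp

theorem algebraMap_cycloChar [Algebra (ZMod p) k] (hM : UDef.IsModelR ρbar M)
    (hdet : (GaloisRepAdic.ofResidualGaloisRep ρbar).DetIsCyclotomic p) (g : ΓQ) :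
    algebraMap (ZMod p) k (cycloChar p g) = (M g).det := by
  have : NeZero p := ⟨(Fact.out : p.Prime).ne_zero⟩
  have : CharP k p := charP_of_det hdet
  have hspec : ∀ μ : ℚbar, μ ^ p ^ 1 = 1 → g μ = μ ^ ((cycloChar p g : ZMod p)).val := by
    intro μ hμ
    rw [pow_one] at hμ
    have hu : (rootsOfUnity.mkOfPowEq μ hμ : ℚbarˣ) ∈ rootsOfUnity p ℚbar :=
      (rootsOfUnity.mkOfPowEq μ hμ).2
    have h2 := modularCyclotomicCharacter.spec ℚbar (card_rootsOfUnity_eq_self p)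
      (g : ℚbar ≃+* ℚbar) (t := (rootsOfUnity.mkOfPowEq μ hμ : ℚbarˣ)) hu
    exact h2
  have h1 := hdet.2 1 g _ hspec
  have hp : (p : k) = 0 := CharP.cast_eq_zero k p
  rw [pow_one, hp, Ideal.span_singleton_eq_bot.mpr rfl, Ideal.mem_bot, sub_eq_zero] at h1
  rw [← det_of_isModelR hM]
  have h2 : LinearMap.det (ρbar.ρ g) = (((cycloChar p g : ZMod p)).val : k) := h1
  rw [h2]
  have h3 : (((cycloChar p g : ZMod p)).val : ZMod p) = (cycloChar p g : ZMod p) :=
    ZMod.natCast_zmod_val _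
  conv_lhs => rw [← h3]
  rw [map_natCast]

theorem isLC₁_unram_of_isModelR (hM : UDef.IsModelR ρbar M) {SP : Finset Nat.Primes}
    (h : ∀ q : Nat.Primes, q ∉ SP → ρbar.IsUnramifiedAt q) : IsLC₁ (unram SP) M := by
  rw [isLC₁_unram_iff]
  refine ⟨locConst_iff.mp (locConst_of_isModelR hM), fun q hq A hA s hs g => ?_⟩
  rw [map_mul, unramified_of_isModelR hM (h q hq) A hA s hs, mul_one]

theorem exists_primes_finset (s : Finset ℕ) : ∃ T : Finset Nat.Primes,
    (∀ q : Nat.Primes, q ∈ T ↔ (q : ℕ) ∈ s) ∧ ((∀ x ∈ s, x.Prime) → T.card = s.card) := by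
  classical
  refine ⟨s.subtype Nat.Prime, fun q => Finset.mem_subtype, fun h => ?_⟩
  exact (Finset.card_subtype Nat.Prime s).trans (by rw [Finset.filter_true_of_mem h])

/-- The selmer conditions used in the count. -/
structure SelC (M : ΓQ →* Matrix (Fin 2) (Fin 2) k) (p : ℕ) (Smin T : Finset ℕ)
    (a : ΓQ → Matrix (Fin 2) (Fin 2) k) : Prop where
  trace : ∀ σ, (a σ).trace = 0
  cocycle : ∀ σ τ, a (σ * τ) = a σ + adj M σ (a τ)
  level : IsLC₁ (krull ℚ ℚbar) a
  unram : ∀ q : ℕ, q.Prime → q ∉ Smin → q ∉ T →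
    ∀ P : ValuationSubring (AlgebraicClosure ℚ), P.LiesOverPrime q →
      ∀ σ ∈ P.inertiaSubgroupIn ℚ, a σ = 0
  unip : ∀ q : Nat.Primes, (q : ℕ) ∈ Smin → (q : ℕ) ≠ p → CobInertia M q a

/-- **Taylor–Wiles primes and the Selmer bound**, with a set `Sg` of auxiliary primes at which the
representation is scalar, the deformations are unrestricted and the Selmer condition is zero. -/
theorem exists_TW_sigma [Algebra (ZMod p) k] (hp2 : p ≠ 2) (hM : UDef.IsModelR ρbar M)
    (hadj : AdjHyp M)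
    (hdet : (GaloisRepAdic.ofResidualGaloisRep ρbar).DetIsCyclotomic p)
    (hsplit : ∀ σ : ΓQ, ∃ α β : k, LinearMap.charpoly (ρbar.ρ σ) = (X - C α) * (X - C β))
    (S Smin Sg : Finset ℕ) (hpSmin : p ∈ Smin) (hSmin : Smin ⊆ S) (hSg : Sg ⊆ S)
    (hSgp : ∀ q ∈ Sg, q.Prime) (hdj : Disjoint Smin Sg)
    (hscal : ∀ q : Nat.Primes, (q : ℕ) ∈ Sg → ∀ d ∈ Dq q, ∃ c : k, M d = c • 1)
    (hmin : ∀ q : ℕ, q.Prime → q ≠ p → (q ∈ Smin ↔ ¬ ρbar.IsUnramifiedAt q))
    (hGW : ∀ SP : Finset Nat.Primes, pPrime p ∈ SP → IsLC₁ (unram SP) M →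
      Nonempty (GWI M (cycloChar p) SP (finrank (ZMod p) k)))
    (hTWb : ∀ q : Nat.Primes, (q : ℕ) ≠ p → p ∣ (q : ℕ) - 1 →
      (∀ P : ValuationSubring ℚbar, P.LiesOverPrime (q : ℕ) →
        ∀ σ ∈ P.inertiaSubgroupIn ℚ, M σ = 1) →
      (∀ P : ValuationSubring ℚbar, P.LiesOverPrime (q : ℕ) → ∀ φ : ΓQ, P.IsFrobeniusAt φ (q : ℕ) →
        ∃ α β : k, α ≠ β ∧ (M φ).charpoly = (X - C α) * (X - C β)) → finrank k (zD M q) ≤ 4)
    (hMin : ∀ q : Nat.Primes, (q : ℕ) ≠ p → HasLocal M q 3 (CobInertia M q))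
    (CondP : (ΓQ → Matrix (Fin 2) (Fin 2) k) → Prop) (hP : HasLocal M (pPrime p) 4 CondP) :
    ∃ r : ℕ, 3 * Sg.card ≤ r ∧ ∀ n : ℕ, ∃ qv : Fin r → ℕ, Function.Injective qv ∧
      (∀ i, (qv i).Prime ∧ qv i ∉ S ∧ p ^ (n + 1) ∣ qv i - 1) ∧
      (∀ i, ∀ P : ValuationSubring (AlgebraicClosure ℚ), P.LiesOverPrime (qv i) →
        ∀ φ : ΓQ, P.IsFrobeniusAt φ (qv i) →
          ∃ α β : k, α ≠ β ∧ LinearMap.charpoly (ρbar.ρ φ) = (X - C α) * (X - C β)) ∧
      ∀ Z : Submodule k (ΓQ → Matrix (Fin 2) (Fin 2) k),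
        (∀ a ∈ Z, SelC M p Smin (Sg ∪ Finset.univ.image qv) a ∧ CondP a ∧
          ∀ q : Nat.Primes, (q : ℕ) ∈ Sg → ∀ d ∈ Dq q, a d = 0) →
        Module.Finite k Z ∧ finrank k Z + 3 * Sg.card ≤ r + 3 := by
  classical
  have hcp : CharP k p := charP_of_det hdet
  have h2 : (2 : k) ≠ 0 := hadj.two_ne
  have hχ := algebraMap_cycloChar hM hdet
  have : FiniteDimensional (ZMod p) k := Module.Finite.of_finite
  -- a nonzero functional
  obtain ⟨τ, hτ⟩ : ∃ τ : Module.Dual (ZMod p) k, τ ≠ 0 := by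
    have h1 : 0 < finrank (ZMod p) (Module.Dual (ZMod p) k) := by
      rw [Subspace.dual_finrank_eq]
      exact Module.finrank_pos
    have : Nontrivial (Module.Dual (ZMod p) k) := Module.nontrivial_of_finrank_pos h1
    exact exists_ne 0
  obtain ⟨SP, hmem, -⟩ := exists_primes_finset Smin
  obtain ⟨SG, hmemG, hSGcard⟩ := exists_primes_finset Sg
  have hSGc : SG.card = Sg.card := hSGcard hSgp
  have hdj' : Disjoint SP SG := by
    rw [Finset.disjoint_left]
    intro q hq1 hq2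
    exact (Finset.disjoint_left.mp hdj) ((hmem q).mp hq1) ((hmemG q).mp hq2)
  have hpp : pPrime p ∈ SP := (hmem _).mpr hpSmin
  have hunrP : ∀ q : ℕ, q.Prime → q ∉ Smin → ρbar.IsUnramifiedAt q := by
    intro q hq hqS
    by_contra h
    exact hqS ((hmin q hq (fun h' => hqS (h' ▸ hpSmin))).mpr h)
  have hMlc0 : IsLC₁ (unram SP) M :=
    isLC₁_unram_of_isModelR hM fun q hq => hunrP q q.2 fun h => hq ((hmem q).mpr h)
  have hMlc : IsLC₁ (unram (SP ∪ SG)) M := isLC₁_unram_mono Finset.subset_union_left hMlc0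
  have hMk : IsLC₁ (krull ℚ ℚbar) M := (isLC₁_unram_iff.mp hMlc).1
  obtain ⟨I₀⟩ := hGW (SP ∪ SG) (Finset.mem_union_left _ hpp) hMlc
  -- the local conditions
  obtain ⟨Lp, hLpZ, hLpB, hLpd, hLp⟩ := hP
  choose! Lq hLqZ hLqB hLqd hLq using hMin
  let U : ∀ q : Nat.Primes, Submodule k (Dq q → Matrix (Fin 2) (Fin 2) k) := fun q =>
    if h : q = pPrime p then h ▸ Lp else if q ∈ SP then Lq q else if q ∈ SG then ⊥ else zD M q
  have hUp : U (pPrime p) = Lp := by simp [U]
  have hUq : ∀ q ∈ SP, q ≠ pPrime p → U q = Lq q := by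
    intro q hq hne
    simp [U, hq, hne]
  have hne : ∀ q : Nat.Primes, q ≠ pPrime p → (q : ℕ) ≠ p := fun q hq h => hq (Subtype.ext h)
  have hUG : ∀ q ∈ SG, U q = ⊥ := by
    intro q hq
    have h1 : q ∉ SP := fun h => (Finset.disjoint_left.mp hdj') h hq
    have h2 : q ≠ pPrime p := fun h => h1 (h ▸ hpp)
    simp [U, hq, h1, h2]
  have hUT : ∀ q ∉ SP ∪ SG, U q = zD M q := by
    intro q hq
    rw [Finset.mem_union, not_or] at hq
    have : q ≠ pPrime p := fun h => hq.1 (h ▸ hpp)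
    simp [U, hq.1, hq.2, this]
  have hB : ∀ q ∈ SP ∪ SG, ∀ X : Matrix (Fin 2) (Fin 2) k, X.trace = 0 →
      (fun d : Dq q => adj M d X - X) ∈ U q := by
    intro q hq X hX
    rcases Finset.mem_union.mp hq with hq | hq
    · by_cases h : q = pPrime p
      · subst h
        rw [hUp]
        exact hLpB X hX
      · rw [hUq q hq h]
        exact hLqB q (hne q h) X hX
    · rw [hUG q hq, Submodule.mem_bot]
      funext d
      obtain ⟨c, hc⟩ := hscal q ((hmemG q).mp hq) d d.2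
      have h1 : M d * X * M (d : ΓQ)⁻¹ = X := by
        rw [hc, smul_mul_assoc, one_mul, smul_mul_assoc]
        have h3 : c • M (d : ΓQ)⁻¹ = 1 := by
          have h4 := r_mul_inv M (d : ΓQ)
          rwa [hc, smul_mul_assoc, one_mul] at h4
        rw [← mul_smul_comm, h3, mul_one]
      show M d * X * M (d : ΓQ)⁻¹ - X = 0
      rw [h1, sub_self]
  have hZ : ∀ q ∈ SP ∪ SG, U q ≤ zD M q := by
    intro q hq
    rcases Finset.mem_union.mp hq with hq | hq
    · by_cases h : q = pPrime p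
      · subst h
        rw [hUp]
        exact hLpZ
      · rw [hUq q hq h]
        exact hLqZ q (hne q h)
    · rw [hUG q hq]
      exact bot_le
  have hsumU : ∑ q ∈ SP ∪ SG, finrank k (U q) ≤ 3 * SP.card + 1 := by
    rw [Finset.sum_union hdj']
    have e0 : ∑ q ∈ SG, finrank k (U q) = 0 :=
      Finset.sum_eq_zero fun q hq => by rw [hUG q hq, finrank_bot]
    have e2 : ∑ q ∈ SP, finrank k (U q) ≤ 3 * SP.card + 1 := by
      rw [← Finset.add_sum_erase _ _ hpp]
      have e3 : ∑ q ∈ SP.erase (pPrime p), finrank k (U q) ≤ 3 * (SP.erase (pPrime p)).card := by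
        rw [mul_comm, ← smul_eq_mul, ← Finset.sum_const]
        refine Finset.sum_le_sum fun q hq => ?_
        rw [hUq q (Finset.mem_of_mem_erase hq) (Finset.ne_of_mem_erase hq)]
        exact hLqd q (hne q (Finset.ne_of_mem_erase hq))
      have e4 := Finset.card_erase_add_one hpp
      have e5 : finrank k (U (pPrime p)) ≤ 4 := by rw [hUp]; exact hLpd
      omega
    omega
  -- the dual Selmer space
  set W := selD' hτ h2 hχ U I₀ with hW
  have hWfin : Module.Finite k W := by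
    have := finite_zTw I₀
    exact Submodule.finiteDimensional_of_le inf_le_left
  have hBW : twCobound M ≤ W := by
    rintro ψ hψ
    have hc := TwCocycle.of_mem_twCobound hψ
    obtain ⟨X, hX, hψ⟩ := hψ
    refine mem_selTw.mpr ⟨⟨hc.trace_eq, hc.map_mul, ?_⟩, fun v => ?_⟩
    · obtain ⟨N, hN, h⟩ := hMlc
      refine ⟨N, hN, fun g s hs => ?_⟩
      rw [hψ, hψ, tw_congr (h g s hs)]
    · refine (mem_perpM I₀ hτ h2 hχ).mpr ⟨fun γ => twRep (ZMod p) M (primeLocalToGlobal v.1 γ)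
        ⟨X, mem_ad0.mpr hX⟩ - ⟨X, mem_ad0.mpr hX⟩, I₀.B1_le_perp v _ ((mem_B1 _).mpr
          ⟨⟨X, mem_ad0.mpr hX⟩, fun γ => rfl⟩), ?_⟩
      funext γ
      exact (hψ _).symm
  have hfinB : Module.Finite k (twCobound M) := Submodule.finiteDimensional_of_le hBW
  have h3 := hadj.finrank_twCobound
  -- lower bound for the dual Selmer space
  have hlow : 3 * Sg.card + 3 ≤ finrank k W := by
    have key := finrank_selU_dual hτ h2 hχ U I₀ rfl hB hZ
    rw [Finset.card_union_of_disjoint hdj'] at key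
    have h5 : 3 ≤ finrank k (selU U M (SP ∪ SG)) := by
      have hfinU : Module.Finite k (selU U M (SP ∪ SG)) := by
        have := finite_zAd I₀ hτ h2 hχ
        exact Submodule.finiteDimensional_of_le inf_le_left
      let f : ad0 k →ₗ[k] (ΓQ → Matrix (Fin 2) (Fin 2) k) :=
        { toFun := fun X g => adj M g X.1 - X.1
          map_add' := fun X Y => funext fun g => by
            show M g * (X.1 + Y.1) * M g⁻¹ - (X.1 + Y.1) =
              (M g * X.1 * M g⁻¹ - X.1) + (M g * Y.1 * M g⁻¹ - Y.1)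
            rw [mul_add, add_mul]; abel
          map_smul' := fun c X => funext fun g => by
            show M g * (c • X.1) * M g⁻¹ - (c • X.1) = c • (M g * X.1 * M g⁻¹ - X.1)
            rw [mul_smul_comm, smul_mul_assoc, smul_sub] }
      have hf : Function.Injective f := by
        rw [← LinearMap.ker_eq_bot, LinearMap.ker_eq_bot']
        intro X hX
        by_contra hne0
        refine hadj.no_line (fun h => hne0 (Subtype.ext h)) (mem_ad0.mp X.2) fun g => ⟨1, ?_⟩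
        have h6 : M g * X.1 * M g⁻¹ - X.1 = 0 := congrFun hX g
        rw [sub_eq_zero] at h6
        rw [one_smul]
        conv_rhs => rw [← h6]
        rw [mul_assoc, r_inv_mul, mul_one]
      have h7 : LinearMap.range f ≤ selU U M (SP ∪ SG) := by
        rintro _ ⟨X, rfl⟩
        refine (mem_selU U hZ).mpr ⟨⟨fun g => ?_, fun g h => ?_, ?_⟩, fun q hq => ?_⟩
        · show (adj M g X.1 - X.1).trace = 0
          rw [Matrix.trace_sub, trace_adj, sub_self]
        · show M (g * h) * X.1 * M (g * h)⁻¹ - X.1 = (M g * X.1 * M g⁻¹ - X.1) +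
            M g * (M h * X.1 * M h⁻¹ - X.1) * M g⁻¹
          rw [_root_.mul_inv_rev, map_mul, map_mul, mul_sub, sub_mul]
          simp only [mul_assoc]
          abel
        · obtain ⟨N, hN, hMN⟩ := hMlc
          have hn := (unram (SP ∪ SG)).normal N hN
          refine ⟨N, hN, fun d s hs => ?_⟩
          have e2 : M (d * s)⁻¹ = M d⁻¹ := by
            have : (d * s)⁻¹ = d⁻¹ * (d * s⁻¹ * d⁻¹) := by group
            rw [this]
            exact hMN _ _ (hn.conj_mem _ (N.inv_mem hs) _)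
          show M (d * s) * X.1 * M (d * s)⁻¹ - X.1 = M d * X.1 * M d⁻¹ - X.1
          rw [hMN d s hs, e2]
        · exact hB q hq X.1 (mem_ad0.mp X.2)
      have h8 := Submodule.finrank_mono h7
      rw [LinearMap.finrank_range_of_inj hf, finrank_ad0] at h8
      exact h8
    rw [hSGc] at key
    have key2 : finrank k (selU U M (SP ∪ SG)) + 1 + 3 * (SP.card + Sg.card) ≤
      ∑ q ∈ SP ∪ SG, finrank k (U q) + finrank k W := key
    omega
  have hr : finrank k W = (finrank k W - 3) + 3 := by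
    have := Submodule.finrank_mono hBW
    omega
  refine ⟨finrank k W - 3, by omega, fun n => ?_⟩
  obtain ⟨qv, hinj, hq, hfrob, hkill⟩ := exists_taylorWiles_primes hp2 hM hadj hdet hsplit S
    (hSmin hpSmin) (fun q hq hqS => hunrP q hq fun h => hqS (hSmin h)) W
    (fun ψ hψ => ⟨(mem_selTw.mp hψ).1.1, (mem_selTw.mp hψ).1.2.1⟩)
    (fun ψ hψ => locConst_iff.mpr (isLC₁_unram_iff.mp (mem_selTw.mp hψ).1.2.2).1)
    hBW (finrank k W - 3) hr n
  refine ⟨qv, hinj, hq, hfrob, ?_⟩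
  obtain ⟨T, hmemT', hTcard'⟩ := exists_primes_finset (Finset.univ.image qv)
  have hmemT : ∀ q : Nat.Primes, q ∈ T ↔ ∃ i, qv i = (q : ℕ) := by
    intro q
    rw [hmemT', Finset.mem_image]
    simp
  have hdisj : Disjoint (SP ∪ SG) T := by
    rw [Finset.disjoint_left]
    intro q hq1 hq2
    obtain ⟨i, hi⟩ := (hmemT q).mp hq2
    rcases Finset.mem_union.mp hq1 with h | h
    · exact (hq i).2.1 (hi ▸ hSmin ((hmem q).mp h))
    · exact (hq i).2.1 (hi ▸ hSg ((hmemG q).mp h))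
  have hTcard : T.card = finrank k W - 3 := by
    rw [hTcard', Finset.card_image_of_injective _ hinj, Finset.card_univ, Fintype.card_fin]
    intro x hx
    obtain ⟨i, -, rfl⟩ := Finset.mem_image.mp hx
    exact (hq i).1
  have hpT : pPrime p ∈ (SP ∪ SG) ∪ T :=
    Finset.mem_union_left _ (Finset.mem_union_left _ hpp)
  have hMlc' : IsLC₁ (unram ((SP ∪ SG) ∪ T)) M := isLC₁_unram_mono Finset.subset_union_left hMlc
  obtain ⟨I⟩ := hGW ((SP ∪ SG) ∪ T) hpT hMlc'
  have hTnot : ∀ q ∈ T, q ∉ SP ∪ SG := fun q hq1 hq2 =>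
    (Finset.disjoint_left.mp hdisj) hq2 hq1
  have count := finrank_selU_gen hτ h2 hχ U hdisj hMlc I₀ I rfl hB hZ
    (fun q hq => hUT q (hTnot q hq)) hfinB h3 (fun ψ hψ hloc => hkill ψ hψ fun i => by
      have hprime := (hq i).1
      refine ⟨primeLocalPlace ⟨qv i, hprime⟩, primeLocalPlace_liesOverPrime ⟨qv i, hprime⟩, ?_⟩
      exact hloc ⟨qv i, hprime⟩ ((hmemT _).mpr ⟨i, rfl⟩))
  have hsumT : ∑ q ∈ T, finrank k (zD M q) ≤ 4 * T.card := by
    rw [mul_comm, ← smul_eq_mul, ← Finset.sum_const]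
    refine Finset.sum_le_sum fun q hqT => ?_
    obtain ⟨i, hi⟩ := (hmemT q).mp hqT
    have hqS : (q : ℕ) ∉ Smin := fun h =>
      hTnot q hqT (Finset.mem_union_left _ ((hmem q).mpr h))
    refine hTWb q (fun h => hqS (h ▸ hpSmin)) ?_ ?_ ?_
    · rw [← hi]
      exact (dvd_pow_self p (Nat.succ_ne_zero n)).trans (hq i).2.2
    · intro P hP σ hσ
      exact unramified_of_isModelR hM (hunrP q q.2 hqS) P hP σ hσ
    · intro P hP φ hφ
      rw [← hi] at hP hφ
      obtain ⟨α, β, hαβ, h⟩ := hfrob i P hP φ hφ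
      exact ⟨α, β, hαβ, by rw [← charpoly_of_isModelR hM, h]⟩
  intro Z hZ'
  have hle : Z ≤ selU U M ((SP ∪ SG) ∪ T) := by
    intro a ha
    obtain ⟨hs, hc, hzero⟩ := hZ' a ha
    have hak : a ∈ zAd M (krull ℚ ℚbar) := ⟨hs.trace, hs.cocycle, hs.level⟩
    have hZU : ∀ q ∈ (SP ∪ SG) ∪ T, U q ≤ zD M q := by
      intro q hq1
      rcases Finset.mem_union.mp hq1 with h | h
      · exact hZ q h
      · exact (hUT q (hTnot q h)).le
    refine (mem_selU U hZU).mpr ⟨⟨hs.trace, hs.cocycle, ?_⟩, fun q hq1 => ?_⟩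
    · rw [isLC₁_unram_iff]
      refine ⟨hs.level, fun q hq1 A hA s hs' g => ?_⟩
      rw [Finset.mem_union, Finset.mem_union, not_or, not_or] at hq1
      have h5 := hs.unram q q.2 (fun h => hq1.1.1 ((hmem q).mpr h))
        (fun h => by
          rcases Finset.mem_union.mp h with h | h
          · exact hq1.1.2 ((hmemG q).mpr h)
          · exact hq1.2 ((hmemT' q).mpr h)) A hA s hs'
      rw [hs.cocycle, h5, adj, mul_zero, zero_mul, add_zero]
    · by_cases h : q = pPrime p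
      · subst h
        rw [hUp]
        exact hLp a hak hc
      · rcases Finset.mem_union.mp hq1 with h' | h'
        · rcases Finset.mem_union.mp h' with h'' | h''
          · rw [hUq q h'' h]
            exact hLq q (hne q h) a hak (hs.unip q ((hmem q).mp h'') (hne q h))
          · rw [hUG q h'', Submodule.mem_bot]
            exact funext fun d => hzero q ((hmemG q).mp h'') d d.2
        · rw [hUT q (hTnot q h')]
          exact restrict_mem_zD hak
  have hfinU : Module.Finite k (selU U M ((SP ∪ SG) ∪ T)) := by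
    have := finite_zAd I hτ h2 hχ
    exact Submodule.finiteDimensional_of_le inf_le_left
  refine ⟨Submodule.finiteDimensional_of_le hle, ?_⟩
  have h9 := Submodule.finrank_mono hle
  rw [Finset.card_union_of_disjoint hdj', hSGc] at count
  omega

/-- **Taylor–Wiles primes and the Selmer bound.** -/
theorem exists_TW [Algebra (ZMod p) k] (hp2 : p ≠ 2) (hM : UDef.IsModelR ρbar M)
    (hadj : AdjHyp M)
    (hdet : (GaloisRepAdic.ofResidualGaloisRep ρbar).DetIsCyclotomic p)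
    (hsplit : ∀ σ : ΓQ, ∃ α β : k, LinearMap.charpoly (ρbar.ρ σ) = (X - C α) * (X - C β))
    (S Smin : Finset ℕ) (hpSmin : p ∈ Smin) (hSmin : Smin ⊆ S)
    (hmin : ∀ q : ℕ, q.Prime → q ≠ p → (q ∈ Smin ↔ ¬ ρbar.IsUnramifiedAt q))
    (hGW : ∀ SP : Finset Nat.Primes, pPrime p ∈ SP → IsLC₁ (unram SP) M →
      Nonempty (GWI M (cycloChar p) SP (finrank (ZMod p) k)))
    (hTWb : ∀ q : Nat.Primes, (q : ℕ) ≠ p → p ∣ (q : ℕ) - 1 →
      (∀ P : ValuationSubring ℚbar, P.LiesOverPrime (q : ℕ) →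
        ∀ σ ∈ P.inertiaSubgroupIn ℚ, M σ = 1) →
      (∀ P : ValuationSubring ℚbar, P.LiesOverPrime (q : ℕ) → ∀ φ : ΓQ, P.IsFrobeniusAt φ (q : ℕ) →
        ∃ α β : k, α ≠ β ∧ (M φ).charpoly = (X - C α) * (X - C β)) → finrank k (zD M q) ≤ 4)
    (hMin : ∀ q : Nat.Primes, (q : ℕ) ≠ p → HasLocal M q 3 (CobInertia M q))
    (CondP : (ΓQ → Matrix (Fin 2) (Fin 2) k) → Prop) (hP : HasLocal M (pPrime p) 4 CondP) :
    ∃ r : ℕ, ∀ n : ℕ, ∃ qv : Fin r → ℕ, Function.Injective qv ∧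
      (∀ i, (qv i).Prime ∧ qv i ∉ S ∧ p ^ (n + 1) ∣ qv i - 1) ∧
      (∀ i, ∀ P : ValuationSubring (AlgebraicClosure ℚ), P.LiesOverPrime (qv i) →
        ∀ φ : ΓQ, P.IsFrobeniusAt φ (qv i) →
          ∃ α β : k, α ≠ β ∧ LinearMap.charpoly (ρbar.ρ φ) = (X - C α) * (X - C β)) ∧
      ∀ Z : Submodule k (ΓQ → Matrix (Fin 2) (Fin 2) k),
        (∀ a ∈ Z, SelC M p Smin (Finset.univ.image qv) a ∧ CondP a) →
        Module.Finite k Z ∧ finrank k Z ≤ r + 3 := by
  obtain ⟨r, -, hr⟩ := exists_TW_sigma hp2 hM hadj hdet hsplit S Smin ∅ hpSmin hSmin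
    (Finset.empty_subset _) (fun q hq => absurd hq (Finset.notMem_empty q))
    (Finset.disjoint_empty_right _) (fun q hq => absurd hq (Finset.notMem_empty _)) hmin hGW hTWb
    hMin CondP hP
  refine ⟨r, fun n => ?_⟩
  obtain ⟨qv, h1, h2, h3, h4⟩ := hr n
  refine ⟨qv, h1, h2, h3, fun Z hZ => ?_⟩
  have h5 := h4 Z fun a ha => ⟨by rw [Finset.empty_union]; exact (hZ a ha).1, (hZ a ha).2,
    fun q hq => absurd hq (Finset.notMem_empty _)⟩
  rw [Finset.card_empty, mul_zero, add_zero] at h5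
  exact h5

end Main

end Fermat.Agent.TWP.GW
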