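import Fermat.Agent.TWP.GW.FromRec
import Fermat.Agent.CFT.EC.EulSum
import Fermat.Agent.CFT.EC.MainECU
import Fermat.Agent.CFT.Final55

/-!
# The Greenberg–Wiles inputs, unconditionally
-/

set_option autoImplicit false

namespace Fermat.Agent.TWP.GW

open Module Matrix Pointwise Fermat.Agent.CFT Fermat.Agent.CFT.LC Fermat.Agent.CFT.PT ExtCitation

local notation "ℚbar" => AlgebraicClosure ℚ
local notation "ΓQ" => (AlgebraicClosure ℚ ≃ₐ[ℚ] AlgebraicClosure ℚ)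

variable {p : ℕ} [Fact p.Prime]

theorem recInput (hp2 : p ≠ 2) : RecInput p := fun S hpS => by
  obtain ⟨P⟩ := exists_ptData hp2 S hpS
  exact ⟨_, P.D, P.hRec⟩

/-- **The global Euler characteristic formula** over `𝔽_p`, `p ≠ 2`. -/
theorem ec_eq (hp2 : p ≠ 2) (S : Finset Nat.Primes) (hpS : pPrime p ∈ S)
    {V : Type} [AddCommGroup V] [Module (ZMod p) V] [FiniteDimensional (ZMod p) V]
    (ρ : Representation (ZMod p) ΓQ V) (hρ : Smooth (unram S) ρ) :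
    finrank (ZMod p) (LC.H0 ρ) + finrank (ZMod p) (LC.H2 ρ (unram S)) + finrank (ZMod p) V =
      finrank (ZMod p) (LC.H1 ρ (unram S)) +
        finrank (ZMod p) (LinearMap.ker (ρ complexConjugation - 1)) := by
  obtain ⟨P⟩ := exists_ptData hp2 S hpS
  have : Nonempty ↥S := ⟨⟨pPrime p, hpS⟩⟩
  exact EC.ecIneq_of_D P.D hp2 hpS (sum_delta S hpS) P.hRec P.hG2 P.hG3
    (EC.ecu_of_rec hp2 P.D P.hRec) ρ hρ

theorem ecIneq (hp2 : p ≠ 2) (S : Finset Nat.Primes) (hpS : pPrime p ∈ S) : ECIneq p S :=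
  fun ρ hρ => (ec_eq hp2 S hpS ρ hρ).le

theorem gwInput {k : Type} [Field k] [Algebra (ZMod p) k]
    {M : ΓQ →* Matrix (Fin 2) (Fin 2) k} (hp2 : p ≠ 2) (h2 : (2 : k) ≠ 0)
    (hχ : ∀ g, algebraMap (ZMod p) k (cycloChar p g) = (M g).det) : Wiring.GWInput p M :=
  gwInput_of_rec hp2 h2 hχ (recInput hp2) (fun S hpS => ecIneq hp2 S hpS)

end Fermat.Agent.TWP.GW
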