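import Fermat.Agent.CFT.PT.Inputs

/-!
# The Greenberg–Wiles inequality (abstract form)

* `finrank_inf_add_le` : linear algebra of orthogonal subspaces;
* `finrank_selmer_add_le` : cohomological form;
* `gw_cocycle` : cocycle form.
-/

set_option autoImplicit false
set_option linter.unusedSectionVars false

namespace Fermat.Agent.TWP.GW

open Module Fermat.Agent.CFT Fermat.Agent.CFT.LC Fermat.Agent.CFT.PT

section LinAlg

variable {k : Type*} [Field k] {A A' : Type*} [AddCommGroup A] [Module k A] [AddCommGroup A']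
  [Module k A'] [FiniteDimensional k A] [FiniteDimensional k A']

/-- The left orthogonal of a subspace `W ≤ A'`. -/
def lorth (B : A →ₗ[k] A' →ₗ[k] k) (W : Submodule k A') : Submodule k A :=
  W.dualAnnihilator.comap B

omit [FiniteDimensional k A] [FiniteDimensional k A'] in
theorem mem_lorth {B : A →ₗ[k] A' →ₗ[k] k} {W : Submodule k A'} {x : A} :
    x ∈ lorth B W ↔ ∀ y ∈ W, B x y = 0 := by
  rw [lorth, Submodule.mem_comap, Submodule.mem_dualAnnihilator]

theorem finrank_lorth_add {B : A →ₗ[k] A' →ₗ[k] k} (hl : ∀ x, (∀ y, B x y = 0) → x = 0)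
    (hr : ∀ y, (∀ x, B x y = 0) → y = 0) (W : Submodule k A') :
    finrank k (lorth B W) + finrank k W = finrank k A := by
  have hinj : Function.Injective B := by
    rw [← LinearMap.ker_eq_bot, LinearMap.ker_eq_bot']
    intro x hx
    exact hl x fun y => by rw [hx]; rfl
  have hinj' : Function.Injective B.flip := by
    rw [← LinearMap.ker_eq_bot, LinearMap.ker_eq_bot']
    intro y hy
    exact hr y fun x => by rw [← LinearMap.flip_apply, hy]; rfl
  have h1 : finrank k A ≤ finrank k A' := by
    have := LinearMap.finrank_le_finrank_of_injective hinj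
    rwa [Subspace.dual_finrank_eq] at this
  have h2 : finrank k A' ≤ finrank k A := by
    have := LinearMap.finrank_le_finrank_of_injective hinj'
    rwa [Subspace.dual_finrank_eq] at this
  have h3 : finrank k A = finrank k A' := le_antisymm h1 h2
  have h4 : finrank k A = finrank k (Dual k A') := by rw [Subspace.dual_finrank_eq, h3]
  let e : A ≃ₗ[k] Dual k A' := LinearEquiv.ofInjectiveOfFinrankEq B hinj h4
  have he : ∀ x, e x = B x := fun x => rfl
  have h5 : (lorth B W).map (e : A →ₗ[k] Dual k A') = W.dualAnnihilator := by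
    ext f
    constructor
    · rintro ⟨x, hx, rfl⟩
      exact hx
    · intro hf
      refine ⟨e.symm f, ?_, e.apply_symm_apply f⟩
      show B (e.symm f) ∈ W.dualAnnihilator
      rw [← he, e.apply_symm_apply]
      exact hf
  have h6 : finrank k (lorth B W) = finrank k W.dualAnnihilator := by
    rw [← h5]
    exact (LinearEquiv.finrank_map_eq e (lorth B W)).symm
  have h7 := Subspace.finrank_add_finrank_dualAnnihilator_eq W
  omega

theorem finrank_inf_add_le {B : A →ₗ[k] A' →ₗ[k] k} (hl : ∀ x, (∀ y, B x y = 0) → x = 0)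
    (hr : ∀ y, (∀ x, B x y = 0) → y = 0) (I : Submodule k A) (I' : Submodule k A')
    (hI : ∀ x ∈ I, ∀ y ∈ I', B x y = 0) (W : Submodule k A') :
    finrank k ↥(I' ⊓ W) + finrank k I ≤ finrank k W + finrank k ↥(I ⊓ lorth B W) := by
  have h1 := finrank_lorth_add hl hr W
  have h2 := finrank_lorth_add hl hr (I' ⊓ W)
  have h3 : I ⊔ lorth B W ≤ lorth B (I' ⊓ W) := by
    refine sup_le (fun x hx => ?_) (fun x hx => ?_)
    · exact mem_lorth.mpr fun y hy => hI x hx y hy.1
    · exact mem_lorth.mpr fun y hy => mem_lorth.mp hx y hy.2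
  have h4 := Submodule.finrank_mono h3
  have h5 := Submodule.finrank_sup_add_finrank_inf_eq I (lorth B W)
  omega

omit [FiniteDimensional k A] [FiniteDimensional k A'] in
theorem finrank_map_of_inj (f : A →ₗ[k] A') (hf : Function.Injective f) (X : Submodule k A) :
    finrank k (X.map f) = finrank k X :=
  (LinearEquiv.finrank_eq (X.equivMapOfInjective f hf)).symm

omit [FiniteDimensional k A'] in
theorem finrank_comap_of_surj (f : A →ₗ[k] A') (hf : Function.Surjective f)
    (X : Submodule k A') :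
    finrank k (X.comap f) = finrank k X + finrank k (LinearMap.ker f) := by
  rw [← LinearMap.finrank_range_add_finrank_ker (f.domRestrict (X.comap f))]
  congr 1
  · rw [LinearMap.range_domRestrict, Submodule.map_comap_eq_of_surjective hf]
  · have h4 : (LinearMap.ker (f.domRestrict (X.comap f))).map (X.comap f).subtype =
        LinearMap.ker f := by
      ext x
      constructor
      · rintro ⟨y, hy, rfl⟩
        exact hy
      · intro hx
        exact ⟨⟨x, by rw [Submodule.mem_comap, LinearMap.mem_ker.mp hx]; exact X.zero_mem⟩,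
          hx, rfl⟩
    rw [← h4]
    exact (finrank_map_of_inj _ (Submodule.injective_subtype _) _).symm

end LinAlg

section Cocycles

variable {k : Type} [Field k] {G : Type} [Group G] {L : Lvl G} {V : Type} [AddCommGroup V]
  [Module k V] [FiniteDimensional k V] (ρ : Representation k G V)

instance finiteDimensional_B1 : FiniteDimensional k (B1 ρ) := by
  unfold B1
  infer_instance

theorem finrank_B1_add : finrank k (B1 ρ) + finrank k (LC.H0 ρ) = finrank k V :=
  LinearMap.finrank_range_add_finrank_ker (d0 ρ)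

/-- The subspace of `Z1` attached to a subspace of `H1`. -/
noncomputable def zOf {ρ : Representation k G V} (X : Submodule k (LC.H1 ρ L)) :
    Submodule k (G → V) :=
  (X.comap (H1.mk ρ L)).map (Z1 ρ L).subtype

/-- The image in `H1` of a subspace of functions -/
noncomputable def hOf (ρ : Representation k G V) (L : Lvl G) (U : Submodule k (G → V)) :
    Submodule k (LC.H1 ρ L) :=
  (U.comap (Z1 ρ L).subtype).map (H1.mk ρ L)

variable {ρ}

theorem mem_zOf {X : Submodule k (LC.H1 ρ L)} {f : G → V} :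
    f ∈ zOf X ↔ ∃ hf : f ∈ Z1 ρ L, H1.mk ρ L ⟨f, hf⟩ ∈ X := by
  constructor
  · rintro ⟨x, hx, rfl⟩
    exact ⟨x.2, hx⟩
  · rintro ⟨hf, h⟩
    exact ⟨⟨f, hf⟩, h, rfl⟩

theorem mem_hOf {U : Submodule k (G → V)} {x : LC.H1 ρ L} :
    x ∈ hOf ρ L U ↔ ∃ (f : G → V) (hf : f ∈ Z1 ρ L), f ∈ U ∧ H1.mk ρ L ⟨f, hf⟩ = x := by
  constructor
  · rintro ⟨f, hf, rfl⟩
    exact ⟨f.1, f.2, hf, rfl⟩
  · rintro ⟨f, hf, hU, rfl⟩
    exact ⟨⟨f, hf⟩, hU, rfl⟩

theorem zOf_hOf {U : Submodule k (G → V)} (h1 : B1 ρ ≤ U) (h2 : U ≤ Z1 ρ L) :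
    zOf (hOf ρ L U) = U := by
  ext f
  rw [mem_zOf]
  constructor
  · rintro ⟨hf, h⟩
    obtain ⟨f', hf', hU, h'⟩ := mem_hOf.mp h
    have h3 : H1.mk ρ L (⟨f, hf⟩ - ⟨f', hf'⟩) = 0 := by rw [map_sub, h', sub_self]
    obtain ⟨v, hv⟩ := H1.mk_eq_zero_iff.mp h3
    have h4 : f - f' ∈ B1 ρ := (mem_B1 ρ).mpr ⟨v, hv⟩
    have h5 := U.add_mem (h1 h4) hU
    rwa [sub_add_cancel] at h5
  · intro hf
    exact ⟨h2 hf, mem_hOf.mpr ⟨f, h2 hf, hf, rfl⟩⟩

theorem B1_le_zOf (hs : Smooth L ρ) (X : Submodule k (LC.H1 ρ L)) : B1 ρ ≤ zOf X := by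
  intro f hf
  refine mem_zOf.mpr ⟨B1_le_Z1 hs hf, ?_⟩
  have : H1.mk ρ L ⟨f, B1_le_Z1 hs hf⟩ = 0 := H1.mk_eq_zero_iff.mpr ((mem_B1 ρ).mp hf)
  rw [this]
  exact X.zero_mem

theorem zOf_le_Z1 (X : Submodule k (LC.H1 ρ L)) : zOf X ≤ Z1 ρ L := by
  intro f hf
  exact (mem_zOf.mp hf).1

theorem finite_Z1 (hs : Smooth L ρ) [FiniteDimensional k (LC.H1 ρ L)] :
    FiniteDimensional k (Z1 ρ L) := by
  have h1 : FiniteDimensional k ↥((B1 ρ).comap (Z1 ρ L).subtype) :=
    FiniteDimensional.of_injective
      ((Submodule.comapSubtypeEquivOfLe (B1_le_Z1 hs)).toLinearMap :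
        ↥((B1 ρ).comap (Z1 ρ L).subtype) →ₗ[k] B1 ρ) (LinearEquiv.injective _)
  exact Module.Finite.of_submodule_quotient ((B1 ρ).comap (Z1 ρ L).subtype)

theorem finite_zOf (hs : Smooth L ρ) [FiniteDimensional k (LC.H1 ρ L)]
    (X : Submodule k (LC.H1 ρ L)) : FiniteDimensional k (zOf X) := by
  have := finite_Z1 hs
  exact Submodule.finiteDimensional_of_le (zOf_le_Z1 X)

theorem finrank_zOf (hs : Smooth L ρ) [FiniteDimensional k (LC.H1 ρ L)]
    (X : Submodule k (LC.H1 ρ L)) :
    finrank k (zOf X) = finrank k X + finrank k (B1 ρ) := by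
  have := finite_Z1 hs
  have h1 : finrank k (zOf X) = finrank k ↥(X.comap (H1.mk ρ L)) :=
    finrank_map_of_inj _ (Z1 ρ L).injective_subtype _
  have h2 := finrank_comap_of_surj (H1.mk ρ L) H1.mk_surjective X
  have h3 : finrank k (LinearMap.ker (H1.mk ρ L)) = finrank k (B1 ρ) := by
    rw [H1.ker_mk]
    exact (Submodule.comapSubtypeEquivOfLe (B1_le_Z1 hs)).finrank_eq
  rw [h1, h2, h3]

end Cocycles

section Family

variable {k : Type} [Field k] {ι : Type} [Fintype ι] {A A' : ι → Type}
  [∀ v, AddCommGroup (A v)] [∀ v, Module k (A v)] [∀ v, AddCommGroup (A' v)]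
  [∀ v, Module k (A' v)] [∀ v, FiniteDimensional k (A v)] [∀ v, FiniteDimensional k (A' v)]
  {X X' : Type} [AddCommGroup X] [Module k X] [AddCommGroup X'] [Module k X']
  [FiniteDimensional k X] [FiniteDimensional k X']
  (l : ∀ v, X →ₗ[k] A v) (l' : ∀ v, X' →ₗ[k] A' v) (B : ∀ v, A v →ₗ[k] A' v →ₗ[k] k)
  (W : ∀ v, Submodule k (A' v))

/-- The Selmer space attached to a family of maps and of subspaces. -/
def sel (W : ∀ v, Submodule k (A' v)) : Submodule k X' := ⨅ v, (W v).comap (l' v)

omit [Fintype ι] [∀ v, FiniteDimensional k (A' v)] [FiniteDimensional k X'] in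
theorem mem_sel {x : X'} : x ∈ sel l' W ↔ ∀ v, l' v x ∈ W v := by
  simp [sel, Submodule.mem_iInf]

/-- the sum of the pairings -/
noncomputable def sumPair : (∀ v, A v) →ₗ[k] (∀ v, A' v) →ₗ[k] k :=
  ∑ v, (B v).compl₁₂ (LinearMap.proj v) (LinearMap.proj v)

omit [∀ v, FiniteDimensional k (A v)] [∀ v, FiniteDimensional k (A' v)] in
theorem sumPair_apply (x : ∀ v, A v) (y : ∀ v, A' v) :
    sumPair B x y = ∑ v, B v (x v) (y v) := by
  simp only [sumPair, LinearMap.sum_apply]
  rfl

omit [∀ v, FiniteDimensional k (A v)] [∀ v, FiniteDimensional k (A' v)] in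
theorem sumPair_single_right [DecidableEq ι] (x : ∀ v, A v) (v : ι) (y : A' v) :
    sumPair B x (Pi.single v y) = B v (x v) y := by
  rw [sumPair_apply, Finset.sum_eq_single v]
  · rw [Pi.single_eq_same]
  · intro w _ hw
    rw [Pi.single_eq_of_ne hw, map_zero]
  · intro h
    exact absurd (Finset.mem_univ v) h

omit [∀ v, FiniteDimensional k (A v)] [∀ v, FiniteDimensional k (A' v)] in
theorem sumPair_single_left [DecidableEq ι] (y : ∀ v, A' v) (v : ι) (x : A v) :
    sumPair B (Pi.single v x) y = B v x (y v) := by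
  rw [sumPair_apply, Finset.sum_eq_single v]
  · rw [Pi.single_eq_same]
  · intro w _ hw
    rw [Pi.single_eq_of_ne hw, map_zero, LinearMap.zero_apply]
  · intro h
    exact absurd (Finset.mem_univ v) h

omit [∀ v, FiniteDimensional k (A' v)] [Fintype ι] in
theorem finrank_pi_submodule [Fintype ι] [∀ v, FiniteDimensional k (A' v)] :
    finrank k ↥(Submodule.pi Set.univ W) = ∑ v, finrank k (W v) := by
  have e : ↥(Submodule.pi Set.univ W) ≃ₗ[k] ∀ v, W v :=
    { toFun := fun x v => ⟨x.1 v, x.2 v (Set.mem_univ v)⟩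
      invFun := fun x => ⟨fun v => (x v).1, fun v _ => (x v).2⟩
      map_add' := fun _ _ => rfl
      map_smul' := fun _ _ => rfl
      left_inv := fun _ => rfl
      right_inv := fun _ => rfl }
  rw [e.finrank_eq, Module.finrank_pi_fintype]

/-- **Greenberg–Wiles**, linear algebra part. -/
theorem finrank_sel_add_le (hl : ∀ v, ∀ x, (∀ y, B v x y = 0) → x = 0)
    (hr : ∀ v, ∀ y, (∀ x, B v x y = 0) → y = 0)
    (horth : ∀ x y, ∑ v, B v (l v x) (l' v y) = 0) :
    finrank k (sel l' W) + finrank k X ≤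
      finrank k (sel l' fun _ => ⊥) + ∑ v, finrank k (W v) +
        finrank k (sel l fun v => lorth (B v) (W v)) := by
  classical
  set tl : X →ₗ[k] ∀ v, A v := LinearMap.pi l with htl
  set tl' : X' →ₗ[k] ∀ v, A' v := LinearMap.pi l' with htl'
  have hL : ∀ x, (∀ y, sumPair B x y = 0) → x = 0 := by
    intro x hx
    funext v
    refine hl v (x v) fun y => ?_
    rw [← sumPair_single_right]
    exact hx _
  have hR : ∀ y, (∀ x, sumPair B x y = 0) → y = 0 := by
    intro y hy
    funext v
    refine hr v (y v) fun x => ?_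
    rw [← sumPair_single_left]
    exact hy _
  have key := finrank_inf_add_le hL hR (LinearMap.range tl) (LinearMap.range tl')
    (by
      rintro _ ⟨x, rfl⟩ _ ⟨y, rfl⟩
      rw [sumPair_apply]
      exact horth x y) (Submodule.pi Set.univ W)
  rw [finrank_pi_submodule] at key
  -- the dimension of a comap
  have gen : ∀ {Y Z : Type} [AddCommGroup Y] [Module k Y] [AddCommGroup Z] [Module k Z]
      [FiniteDimensional k Y] [FiniteDimensional k Z] (f : Y →ₗ[k] Z) (T : Submodule k Z),
      finrank k ↥(T.comap f) = finrank k ↥(LinearMap.range f ⊓ T) +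
        finrank k (LinearMap.ker f) := by
    intro Y Z _ _ _ _ _ _ f T
    have h := finrank_comap_of_surj f.rangeRestrict (LinearMap.surjective_rangeRestrict f)
      (T.comap (LinearMap.range f).subtype)
    have h1 : (T.comap (LinearMap.range f).subtype).comap f.rangeRestrict = T.comap f := by
      ext x; rfl
    have h2 : LinearMap.ker f.rangeRestrict = LinearMap.ker f := LinearMap.ker_rangeRestrict f
    have h3 : finrank k ↥(T.comap (LinearMap.range f).subtype) =
        finrank k ↥(LinearMap.range f ⊓ T) := by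
      rw [← finrank_map_of_inj (LinearMap.range f).subtype (Submodule.injective_subtype _),
        Submodule.map_comap_subtype]
    rw [h1, h2, h3] at h
    exact h
  have e1 : sel l' W = (Submodule.pi Set.univ W).comap tl' := by
    ext x
    rw [mem_sel, Submodule.mem_comap, Submodule.mem_pi]
    exact ⟨fun h v _ => h v, fun h v => h v (Set.mem_univ v)⟩
  have e2 : sel l' (fun _ => ⊥) = LinearMap.ker tl' := by
    ext x
    rw [mem_sel, LinearMap.mem_ker, funext_iff]
    rfl
  have e3 : sel l (fun v => lorth (B v) (W v)) =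
      (lorth (sumPair B) (Submodule.pi Set.univ W)).comap tl := by
    ext x
    rw [mem_sel, Submodule.mem_comap, mem_lorth]
    constructor
    · intro h y hy
      rw [sumPair_apply]
      refine Finset.sum_eq_zero fun v _ => ?_
      exact mem_lorth.mp (h v) (y v) ((Submodule.mem_pi.mp hy) v (Set.mem_univ v))
    · intro h v
      rw [mem_lorth]
      intro y hy
      have := h (Pi.single v y) (by
        rw [Submodule.mem_pi]
        intro w _
        by_cases hw : w = v
        · subst hw
          rwa [Pi.single_eq_same]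
        · rw [Pi.single_eq_of_ne hw]
          exact (W w).zero_mem)
      rwa [sumPair_single_right] at this
  have k1 := gen tl' (Submodule.pi Set.univ W)
  have k2 := gen tl (lorth (sumPair B) (Submodule.pi Set.univ W))
  have k3 := LinearMap.finrank_range_add_finrank_ker tl
  rw [e1, e2, e3]
  omega

end Family

end Fermat.Agent.TWP.GW
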