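import Fermat.Agent.TWP.GW.Matrix

/-!
# Independence of the local invariant

Two local invariants differ by a nonzero scalar, hence define the same orthogonal complements.
-/

set_option autoImplicit false
set_option linter.unusedSectionVars false

namespace Fermat.Agent.TWP.GW

open Module Matrix Fermat.Agent.CFT Fermat.Agent.CFT.LC Fermat.Agent.CFT.PT

section Inv

variable {k : Type} [Field k] {Γ : Type} [Group Γ] {L : Lvl Γ} {χ : Γ →* kˣ}

/-- The identity functional as an invariant vector. -/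
noncomputable def idH0 (χ : Γ →* kˣ) : LC.H0 (dtw (mu χ) χ) :=
  ⟨LinearMap.id, (mem_H0 _).mpr fun g => by
    ext
    rw [dtw_apply_apply, mu_apply, LinearMap.id_apply, LinearMap.id_apply, ← mul_assoc,
      ← Units.val_mul, ← map_mul, mul_inv_cancel, map_one, Units.val_one, one_mul]⟩

theorem pair20_idH0 (inv : LC.H2 (mu χ) L →ₗ[k] k) (x : LC.H2 (mu χ) L) :
    pair20 χ inv (mu χ) x (idH0 χ) = inv x := by
  rw [pair20, LinearMap.compr₂_apply, cup20_eq_toMu]
  congr 1
  obtain ⟨a, rfl⟩ := H2.mk_surjective x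
  rw [Mor.H2_mk]
  congr 1

theorem inv_unique {δ δ' : ℕ} (D : LocalDuality L χ δ) (D' : LocalDuality L χ δ') :
    ∃ c : k, c ≠ 0 ∧ ∀ z, D'.inv z = c * D.inv z := by
  have hs : Smooth L (mu χ) := smooth_mu D.cont
  obtain ⟨y, hy⟩ := (D.bij (mu χ) hs).2 D'.inv
  refine ⟨(y : Dual k k) 1, ?_, fun z => ?_⟩
  · intro h0
    have hy0 : y = 0 := by
      refine Subtype.ext (LinearMap.ext_ring ?_)
      rw [h0]
      rfl
    rw [hy0, map_zero] at hy
    -- `D'.inv = 0` contradicts injectivity for `D'`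
    have h1 : (pair20 χ D'.inv (mu χ)).flip (idH0 χ) = 0 := by
      refine LinearMap.ext fun x => ?_
      rw [LinearMap.flip_apply, pair20_idH0, ← hy]
    have h2 := (D'.bij (mu χ) hs).1 (h1.trans (map_zero _).symm)
    have h3 := congrArg (fun f : LC.H0 (dtw (mu χ) χ) => (f : Dual k k) 1) h2
    exact one_ne_zero (α := k) h3
  · have h1 := LinearMap.congr_fun hy z
    rw [← h1, LinearMap.flip_apply]
    have hy' : y = ((y : Dual k k) 1) • idH0 χ := by
      refine Subtype.ext (LinearMap.ext_ring ?_)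
      show (y : Dual k k) 1 = ((y : Dual k k) 1) * 1
      rw [mul_one]
    conv_lhs => rw [hy']
    rw [map_smul, pair20_idH0, smul_eq_mul]

theorem lorth_eq {δ δ' : ℕ} (D : LocalDuality L χ δ) (D' : LocalDuality L χ δ')
    {V : Type} [AddCommGroup V] [Module k V] (ρ : Representation k Γ V)
    (h h' : Smooth L (dtw ρ χ)) (W : Submodule k (LC.H1 (dtw ρ χ) L)) :
    lorth (pair11 χ D'.inv ρ h') W = lorth (pair11 χ D.inv ρ h) W := by
  obtain ⟨c, hc, hD⟩ := inv_unique D D'
  ext x
  rw [mem_lorth, mem_lorth]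
  refine forall₂_congr fun y _ => ?_
  have h1 : pair11 χ D'.inv ρ h' x y = c * pair11 χ D.inv ρ h x y := by
    rw [pair11, pair11, LinearMap.compr₂_apply, LinearMap.compr₂_apply, hD]
  rw [h1, mul_eq_zero]
  exact or_iff_right hc

end Inv

end Fermat.Agent.TWP.GW
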