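import Fermat.Agent.TWP.GW.Local
import Fermat.Agent.TWP.GW.Unique
import Fermat.Agent.TWP.Primes

/-!
# The count of Selmer cocycles with Taylor–Wiles primes
-/

set_option autoImplicit false
set_option linter.unusedSectionVars false

namespace Fermat.Agent.TWP.GW

open Module Matrix Pointwise Fermat.Agent.CFT Fermat.Agent.CFT.LC Fermat.Agent.CFT.PT ExtCitation

local notation "ℚbar" => AlgebraicClosure ℚ
local notation "ΓQ" => (AlgebraicClosure ℚ ≃ₐ[ℚ] AlgebraicClosure ℚ)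

/-- The subgroup of right periods of a function. -/
def periods {G X : Type} [Group G] (f : G → X) : Subgroup G where
  carrier := {s | ∀ g, f (g * s) = f g}
  one_mem' := fun g => by rw [mul_one]
  mul_mem' := fun {a b} ha hb g => by
    rw [← mul_assoc, hb, ha]
  inv_mem' := fun {a} ha g => by
    have := ha (g * a⁻¹)
    rwa [inv_mul_cancel_right, eq_comm] at this

theorem mem_periods {G X : Type} [Group G] {f : G → X} {s : G} :
    s ∈ periods f ↔ ∀ g, f (g * s) = f g := Iff.rfl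

theorem isLC₁_iff_periods {G X : Type} [Group G] {L : Lvl G} {f : G → X} :
    IsLC₁ L f ↔ L.IsOpen (periods f) :=
  ⟨fun ⟨N, hN, h⟩ => ⟨N, hN, fun _ hs g => h g _ hs⟩,
    fun ⟨N, hN, h⟩ => ⟨N, hN, fun g _ hs => h hs g⟩⟩

theorem isLC₁_unram_iff {S : Finset Nat.Primes} {X : Type} {f : ΓQ → X} :
    IsLC₁ (unram S) f ↔ IsLC₁ (krull ℚ ℚbar) f ∧ ∀ q : Nat.Primes, q ∉ S →
      ∀ A : ValuationSubring ℚbar, A.LiesOverPrime (q : ℕ) → ∀ s ∈ A.inertiaSubgroupIn ℚ,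
        ∀ g, f (g * s) = f g := by
  rw [isLC₁_iff_periods, isLC₁_iff_periods, isOpen_unram_iff_inertia]
  rfl

theorem primeLocalPlace_liesOverPrime (q : Nat.Primes) :
    (primeLocalPlace q).LiesOverPrime (q : ℕ) := by
  have : Fact (q : ℕ).Prime := ⟨q.2⟩
  have h := W.padicIntegers_liesOverPrime (q : ℕ)
  change (padicPlace (q : ℕ)).LiesOverPrime (q : ℕ)
  unfold ValuationSubring.LiesOverPrime at h ⊢
  rw [ValuationSubring.mem_nonunits_iff_or] at h ⊢
  rcases h with h | h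
  · exact absurd h (by exact_mod_cast q.2.ne_zero)
  · right
    intro h'
    apply h
    have := h'
    rw [padicPlace, ValuationSubring.mem_comap] at this
    simpa using this

theorem tw_zero' {k : Type} [Field k] {G : Type} [Group G] (M : G →* Matrix (Fin 2) (Fin 2) k)
    (g : G) : tw M g 0 = 0 := by
  simp [tw]

/-- The inputs for the set of primes `S`. -/
abbrev GWI {F k : Type} [Field F] [Field k] [Algebra F k] [FiniteDimensional F k]
    (M : ΓQ →* Matrix (Fin 2) (Fin 2) k) (χ : ΓQ →* Fˣ) (S : Finset Nat.Primes) (δ : ℕ) : Type :=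
  Inputs (unram S) χ (fun v : S => lvlOver (primeLocalToGlobal v.1))
    (fun v : S => primeLocalToGlobal v.1) (fun _ : S => cont_lvlOver_unram S _) (twRep F M) δ

/-- Level-constant cocycles on the decomposition group. -/
noncomputable abbrev zD {k : Type} [Field k] (M : ΓQ →* Matrix (Fin 2) (Fin 2) k) (q : Nat.Primes) :
    Submodule k (Dq q → Matrix (Fin 2) (Fin 2) k) :=
  zAd (M.comp (Dq q).subtype) ((krull ℚ ℚbar).comap (Dq q).subtype)

section Main

variable {F k : Type} [Field F] [Field k] [Algebra F k] [FiniteDimensional F k]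
  {M : ΓQ →* Matrix (Fin 2) (Fin 2) k} {χ : ΓQ →* Fˣ} {δinf : ℕ}
  {τ : k →ₗ[F] F} (hτ : τ ≠ 0) (h2 : (2 : k) ≠ 0) (hχ : ∀ g, algebraMap F k (χ g) = (M g).det)
  (U : ∀ q : Nat.Primes, Submodule k (Dq q → Matrix (Fin 2) (Fin 2) k))

/-- The transported local condition. -/
noncomputable abbrev pU (q : Nat.Primes) :
    Submodule k (primeLocalGaloisGroup q → Matrix (Fin 2) (Fin 2) k) :=
  push (primeLocalToGlobal_mem q) (U q)

/-- The Selmer space of cocycles in `ad⁰`. -/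
noncomputable abbrev selU (M : ΓQ →* Matrix (Fin 2) (Fin 2) k) (S : Finset Nat.Primes) :
    Submodule k (ΓQ → Matrix (Fin 2) (Fin 2) k) :=
  selAd (unram S) M (fun v : S => primeLocalToGlobal v.1) (fun v => pU U v.1)

/-- The dual Selmer space of cocycles in `ad⁰ ⊗ det`. -/
noncomputable abbrev selD' {S : Finset Nat.Primes} (I : GWI M χ S δinf) :
    Submodule k (ΓQ → Matrix (Fin 2) (Fin 2) k) :=
  selTw (unram S) M (fun v : S => primeLocalToGlobal v.1) (fun v => perpM I hτ h2 hχ v (pU U v.1))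

variable {S : Finset Nat.Primes}

theorem mem_selU (hZ : ∀ q ∈ S, U q ≤ zD M q)
    {a : ΓQ → Matrix (Fin 2) (Fin 2) k} :
    a ∈ selU U M S ↔ a ∈ zAd M (unram S) ∧ ∀ q ∈ S, (fun d : Dq q => a d) ∈ U q := by
  rw [mem_selAd]
  refine and_congr_right fun ha => ?_
  have hlc : IsLC₁ (krull ℚ ℚbar) a := (isLC₁_unram_iff.mp ha.2.2).1
  constructor
  · intro h q hq
    exact (comp_mem_push (denseIn q) (hZ q hq) hlc).mp (h ⟨q, hq⟩)
  · intro h v
    exact (comp_mem_push (denseIn v.1) (hZ v.1 v.2) hlc).mpr (h v.1 v.2)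

/-- Uniqueness of the annihilator. -/
theorem perpM_eq {S' : Finset Nat.Primes} {δ δ' : ℕ} (I : GWI M χ S δ) (I' : GWI M χ S' δ')
    (q : Nat.Primes) (hq : q ∈ S) (hq' : q ∈ S')
    (W : Submodule k (primeLocalGaloisGroup q → Matrix (Fin 2) (Fin 2) k)) :
    perpM I' hτ h2 hχ ⟨q, hq'⟩ W = perpM I hτ h2 hχ ⟨q, hq⟩ W := by
  have key : ∀ X, lorth (I'.pair ⟨q, hq'⟩) X = lorth (I.pair ⟨q, hq⟩) X := fun X =>
    lorth_eq (I.D ⟨q, hq⟩) (I'.D ⟨q, hq'⟩) _ _ _ X
  ext ψ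
  rw [mem_perpM, mem_perpM]
  refine exists_congr fun a => and_congr_left fun _ => ?_
  rw [Inputs.perp, Inputs.perp, key]

include hχ in
/-- An element of the dual Selmer space for `Smin ∪ T` which is a coboundary at the primes of `T`
belongs to the dual Selmer space for `Smin`. -/
theorem selD_mem {Smin T : Finset Nat.Primes} (hM : IsLC₁ (unram Smin) M)
    {δ₀ δ : ℕ} (I₀ : GWI M χ Smin δ₀) (I : GWI M χ (Smin ∪ T) δ)
    {ψ : ΓQ → Matrix (Fin 2) (Fin 2) k} (hψ : ψ ∈ selD' hτ h2 hχ U I)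
    (hT : ∀ q ∈ T, ∃ X : Matrix (Fin 2) (Fin 2) k, X.trace = 0 ∧
      ∀ φ ∈ Dq q, ψ φ = tw M φ X - X) :
    ψ ∈ selD' hτ h2 hχ U I₀ := by
  rw [mem_selTw] at hψ ⊢
  obtain ⟨⟨htr, hmul, hlc⟩, hperp⟩ := hψ
  obtain ⟨hlc1, hlc2⟩ := isLC₁_unram_iff.mp hlc
  obtain ⟨hM1, hM2⟩ := isLC₁_unram_iff.mp hM
  have hMI : ∀ q : Nat.Primes, q ∉ Smin → ∀ A : ValuationSubring ℚbar,
      A.LiesOverPrime (q : ℕ) → ∀ s ∈ A.inertiaSubgroupIn ℚ, M s = 1 := by
    intro q hq A hA s hs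
    have := hM2 q hq A hA s hs 1
    rwa [one_mul, map_one] at this
  have hψc : TwCocycle M ψ := ⟨htr, hmul⟩
  have hfix : ∀ {s : ΓQ}, M s = 1 → ∀ X, tw M s X = X := by
    intro s hs X
    rw [tw_congr (hs.trans (map_one M).symm), tw_one]
  refine ⟨⟨htr, hmul, ?_⟩, fun v => ?_⟩
  · rw [isLC₁_unram_iff]
    refine ⟨hlc1, fun q hq A hA s hs g => ?_⟩
    by_cases hqT : q ∈ T
    · obtain ⟨X, hX, hX'⟩ := hT q hqT
      have hMs := hMI q hq A hA s hs
      -- `A` is conjugate to the distinguished place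
      have hq' := primeLocalPlace_liesOverPrime q
      obtain ⟨σ, hσ⟩ := FrobExists.exists_smul_eq (primeLocalPlace q) A q.2 hq' hA
      have hsD : σ⁻¹ * s * σ ∈ (primeLocalPlace q).inertiaSubgroupIn ℚ := by
        have h3 := Fermat.Agent.TWP.Place.mem_inertia_conj σ⁻¹ hs
        rw [hσ, inv_smul_smul, inv_inv] at h3
        exact h3
      have h4 : ψ (σ⁻¹ * s * σ) = 0 := by
        rw [hX' _ ((Fermat.Agent.TWP.Place.mem_inertiaSubgroupIn_iff _ _).mp hsD).1,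
          hfix (hMI q hq _ hq' _ hsD), sub_self]
      have h5 : ψ s = 0 := by
        have h6 : s = σ * (σ⁻¹ * s * σ) * σ⁻¹ := by group
        have h7 := hψc.conj (g := σ⁻¹ * s * σ) (X := 0) (by rw [h4, tw_zero' M, sub_zero]) σ
        rw [← h6] at h7
        rw [h7, hfix hMs, sub_self]
      rw [hmul, h5, tw_zero' M, add_zero]
    · exact hlc2 q (by rw [Finset.mem_union]; tauto) A hA s hs g
  · have h3 := hperp ⟨v.1, Finset.mem_union_left _ v.2⟩
    rwa [perpM_eq hτ h2 hχ I₀ I v.1 v.2 (Finset.mem_union_left _ v.2)] at h3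

include hχ in
/-- At the primes with full local condition, dual Selmer cocycles are coboundaries. -/
theorem exists_cobound {S : Finset Nat.Primes} (hM : IsLC₁ (krull ℚ ℚbar) M) {δ : ℕ}
    (I : GWI M χ S δ) {q : Nat.Primes} (hq : q ∈ S) (hU : U q = zD M q)
    {ψ : ΓQ → Matrix (Fin 2) (Fin 2) k} (hψ : ψ ∈ selD' hτ h2 hχ U I) :
    ∃ X : Matrix (Fin 2) (Fin 2) k, X.trace = 0 ∧ ∀ φ ∈ Dq q, ψ φ = tw M φ X - X := by
  rw [mem_selTw] at hψ
  obtain ⟨⟨-, -, hlc⟩, hperp⟩ := hψ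
  obtain ⟨a, ha, haψ⟩ := (mem_perpM I hτ h2 hχ).mp (hperp ⟨q, hq⟩)
  have h1 := I.perp_le_B1 ⟨q, hq⟩ (U := toU hτ h2 (pU U q)) (fun f hf => by
    obtain ⟨u, rfl⟩ := dfun_surjective hτ h2 f
    rw [dfun_mem_toU]
    have h3 := (dfun_mem_Z1_comp hτ h2 hχ (primeLocalToGlobal q)).mp hf
    rw [pU, hU, push_zAd (denseIn q) hM]
    exact h3) ha
  obtain ⟨X, hX⟩ := (mem_B1 _).mp h1
  refine ⟨X.1, mem_ad0.mp X.2, ?_⟩
  refine cobound_of_comp (denseIn q) hM (isLC₁_unram_iff.mp hlc).1 (fun γ => ?_)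
    (primeLocalToGlobal_mem q)
  have h4 := congrFun haψ γ
  have h5 := congrArg Subtype.val (hX γ)
  rw [incl_apply] at h4
  show (ψ ∘ primeLocalToGlobal q) γ = _
  rw [← h4, h5]
  rfl

/-- The coboundaries are in the full local space. -/
theorem cobound_mem_zD (hMk : IsLC₁ (krull ℚ ℚbar) M) (q : Nat.Primes)
    {X : Matrix (Fin 2) (Fin 2) k} : (fun d : Dq q => adj M d X - X) ∈ zD M q := by
  refine ⟨fun g => by rw [Matrix.trace_sub, trace_adj, sub_self], fun g h => ?_, ?_⟩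
  · rw [adj_subtype]
    show M (g * h : ΓQ) * X * M (g * h : ΓQ)⁻¹ - X = M g * X * M (g : ΓQ)⁻¹ - X +
      M g * (M h * X * M (h : ΓQ)⁻¹ - X) * M (g : ΓQ)⁻¹
    rw [_root_.mul_inv_rev, map_mul, map_mul, mul_sub, sub_mul]
    simp only [mul_assoc]
    abel
  · obtain ⟨N, hN, hMN⟩ := hMk
    have hn := (krull ℚ ℚbar).normal N hN
    refine ⟨_, ⟨N, hN, rfl⟩, fun d s hs => ?_⟩
    have e1 : M ((d * s : Dq q) : ΓQ) = M d := hMN d s hs
    have e2 : M ((d * s : Dq q) : ΓQ)⁻¹ = M (d : ΓQ)⁻¹ := by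
      have : ((d * s : Dq q) : ΓQ)⁻¹ = (d : ΓQ)⁻¹ * ((d : ΓQ) * (s : ΓQ)⁻¹ * (d : ΓQ)⁻¹) := by
        rw [Subgroup.coe_mul]; group
      rw [this]
      exact hMN _ _ (hn.conj_mem _ (N.inv_mem hs) _)
    show adj M ((d * s : Dq q) : ΓQ) X - X = adj M d X - X
    rw [adj, adj, e1, e2]

/-- **Greenberg–Wiles** for local conditions on decomposition groups. -/
theorem finrank_selU_dual {S : Finset Nat.Primes} (I : GWI M χ S δinf) (hδ : δinf = finrank F k)
    (hB : ∀ q ∈ S, ∀ X : Matrix (Fin 2) (Fin 2) k, X.trace = 0 →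
      (fun d : Dq q => adj M d X - X) ∈ U q)
    (hZ : ∀ q ∈ S, U q ≤ zD M q) :
    finrank k (selU U M S) + 1 + 3 * S.card ≤
      ∑ q ∈ S, finrank k (U q) + finrank k (selD' hτ h2 hχ U I) := by
  have key := gw_matrix I hτ h2 hχ hδ (fun v => pU U v.1)
    (fun v X hX => ⟨_, hB v.1 v.2 X hX, rfl⟩) (fun v => push_le (hZ v.1 v.2))
  have hsum : ∑ v : ↥S, finrank k (pU U v.1) = ∑ q ∈ S, finrank k (U q) := by
    rw [← Finset.sum_coe_sort S fun q => finrank k (U q)]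
    exact Finset.sum_congr rfl fun v _ => finrank_push (denseIn v.1) (hZ v.1 v.2)
  rw [hsum, Fintype.card_coe] at key
  exact key

/-- **The count**, general form. -/
theorem finrank_selU_gen {Smin T : Finset Nat.Primes} (hdisj : Disjoint Smin T)
    (hM : IsLC₁ (unram Smin) M) {δ₀ : ℕ} (I₀ : GWI M χ Smin δ₀)
    (I : GWI M χ (Smin ∪ T) δinf) (hδ : δinf = finrank F k)
    (hB : ∀ q ∈ Smin, ∀ X : Matrix (Fin 2) (Fin 2) k, X.trace = 0 →
      (fun d : Dq q => adj M d X - X) ∈ U q)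
    (hZ : ∀ q ∈ Smin, U q ≤ zD M q) (hT : ∀ q ∈ T, U q = zD M q)
    (hfin : Module.Finite k (twCobound M)) (h3 : finrank k (twCobound M) = 3)
    (hW : ∀ ψ ∈ selD' hτ h2 hχ U I₀, (∀ q ∈ T, ∃ X : Matrix (Fin 2) (Fin 2) k, X.trace = 0 ∧
      ∀ φ ∈ Dq q, ψ φ = tw M φ X - X) → ψ ∈ twCobound M) :
    finrank k (selU U M (Smin ∪ T)) + 1 + 3 * (Smin.card + T.card) ≤
      ∑ q ∈ Smin, finrank k (U q) + ∑ q ∈ T, finrank k (zD M q) + 3 := by
  have hMk : IsLC₁ (krull ℚ ℚbar) M := (isLC₁_unram_iff.mp hM).1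
  have key := finrank_selU_dual hτ h2 hχ U I hδ
    (fun q hq X hX => by
      rcases Finset.mem_union.mp hq with h | h
      · exact hB q h X hX
      · rw [hT q h]
        exact cobound_mem_zD hMk q)
    (fun q hq => by
      rcases Finset.mem_union.mp hq with h | h
      · exact hZ q h
      · exact (hT q h).le)
  have hsum2 : ∑ q ∈ Smin ∪ T, finrank k (U q) =
      ∑ q ∈ Smin, finrank k (U q) + ∑ q ∈ T, finrank k (zD M q) := by
    rw [Finset.sum_union hdisj]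
    congr 1
    exact Finset.sum_congr rfl fun q hq => by rw [hT q hq]
  -- the dual term
  have hdual : finrank k (selD' hτ h2 hχ U I) ≤ 3 := by
    rw [← h3]
    refine Submodule.finrank_mono fun ψ hψ => ?_
    have hloc : ∀ q ∈ T, ∃ X : Matrix (Fin 2) (Fin 2) k, X.trace = 0 ∧
        ∀ φ ∈ Dq q, ψ φ = tw M φ X - X := fun q hq =>
      exists_cobound hτ h2 hχ U hMk I (Finset.mem_union_right _ hq) (hT q hq) hψ
    exact hW ψ (selD_mem hτ h2 hχ U hM I₀ I hψ hloc) hloc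
  rw [hsum2, Finset.card_union_of_disjoint hdisj] at key
  omega

/-- **The count.** -/
theorem finrank_selU_le {Smin T : Finset Nat.Primes} (hdisj : Disjoint Smin T)
    (hM : IsLC₁ (unram Smin) M) {δ₀ : ℕ} (I₀ : GWI M χ Smin δ₀)
    (I : GWI M χ (Smin ∪ T) δinf) (hδ : δinf = finrank F k)
    (hB : ∀ q ∈ Smin, ∀ X : Matrix (Fin 2) (Fin 2) k, X.trace = 0 →
      (fun d : Dq q => adj M d X - X) ∈ U q)
    (hZ : ∀ q ∈ Smin, U q ≤ zD M q) (hT : ∀ q ∈ T, U q = zD M q)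
    {pp : Nat.Primes} (hpp : pp ∈ Smin) (hdp : finrank k (U pp) ≤ 4)
    (hdmin : ∀ q ∈ Smin, q ≠ pp → finrank k (U q) ≤ 3)
    (hdT : ∀ q ∈ T, finrank k (zD M q) ≤ 4)
    (hfin : Module.Finite k (twCobound M)) (h3 : finrank k (twCobound M) = 3)
    (hW : ∀ ψ ∈ selD' hτ h2 hχ U I₀, (∀ q ∈ T, ∃ X : Matrix (Fin 2) (Fin 2) k, X.trace = 0 ∧
      ∀ φ ∈ Dq q, ψ φ = tw M φ X - X) → ψ ∈ twCobound M) :
    finrank k (selU U M (Smin ∪ T)) ≤ T.card + 3 := by
  have key := finrank_selU_gen hτ h2 hχ U hdisj hM I₀ I hδ hB hZ hT hfin h3 hW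
  have e1 : ∑ q ∈ T, finrank k (zD M q) ≤ 4 * T.card := by
    rw [mul_comm, ← smul_eq_mul, ← Finset.sum_const]
    exact Finset.sum_le_sum fun q hq => hdT q hq
  have e2 : ∑ q ∈ Smin, finrank k (U q) ≤ 3 * Smin.card + 1 := by
    rw [← Finset.add_sum_erase _ _ hpp]
    have e3 : ∑ q ∈ Smin.erase pp, finrank k (U q) ≤ 3 * (Smin.erase pp).card := by
      rw [mul_comm, ← smul_eq_mul, ← Finset.sum_const]
      exact Finset.sum_le_sum fun q hq =>
        hdmin q (Finset.mem_of_mem_erase hq) (Finset.ne_of_mem_erase hq)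
    have e4 := Finset.card_erase_add_one hpp
    omega
  omega

end Main

end Fermat.Agent.TWP.GW
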