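import Fermat.Agent.TWP.GW.Count

/-!
# The count of Selmer cocycles with Taylor–Wiles primes, refined version

Variant of `finrank_selU_le` where the sum of the dimensions of the local conditions is an
arbitrary number; used with the zero condition at a set of primes `Σ` at which the residual
representation is scalar.
-/

set_option autoImplicit false
set_option linter.unusedSectionVars false

namespace Fermat.Agent.TWP.GW

open Module Matrix Pointwise Fermat.Agent.CFT Fermat.Agent.CFT.LC Fermat.Agent.CFT.PT ExtCitation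

local notation "ℚbar" => AlgebraicClosure ℚ
local notation "ΓQ" => (AlgebraicClosure ℚ ≃ₐ[ℚ] AlgebraicClosure ℚ)

section Main

variable {F k : Type} [Field F] [Field k] [Algebra F k] [FiniteDimensional F k]
  {M : ΓQ →* Matrix (Fin 2) (Fin 2) k} {χ : ΓQ →* Fˣ} {δinf : ℕ}
  {τ : k →ₗ[F] F} (hτ : τ ≠ 0) (h2 : (2 : k) ≠ 0) (hχ : ∀ g, algebraMap F k (χ g) = (M g).det)
  (U : ∀ q : Nat.Primes, Submodule k (Dq q → Matrix (Fin 2) (Fin 2) k))

/-- **The count**, refined version: `c` is the defect of the local conditions at `Smin`. -/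
theorem finrank_selU_add_le {Smin T : Finset Nat.Primes} (hdisj : Disjoint Smin T)
    (hM : IsLC₁ (unram Smin) M) {δ₀ : ℕ} (I₀ : GWI M χ Smin δ₀)
    (I : GWI M χ (Smin ∪ T) δinf) (hδ : δinf = finrank F k)
    (hB : ∀ q ∈ Smin, ∀ X : Matrix (Fin 2) (Fin 2) k, X.trace = 0 →
      (fun d : Dq q => adj M d X - X) ∈ U q)
    (hZ : ∀ q ∈ Smin, U q ≤ zD M q) (hT : ∀ q ∈ T, U q = zD M q)
    (c : ℕ) (hc : ∑ q ∈ Smin, finrank k (U q) + c ≤ 3 * Smin.card + 1)
    (hdT : ∀ q ∈ T, finrank k (zD M q) ≤ 4)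
    (hfin : Module.Finite k (twCobound M)) (h3 : finrank k (twCobound M) = 3)
    (hW : ∀ ψ ∈ selD' hτ h2 hχ U I₀, (∀ q ∈ T, ∃ X : Matrix (Fin 2) (Fin 2) k, X.trace = 0 ∧
      ∀ φ ∈ Dq q, ψ φ = tw M φ X - X) → ψ ∈ twCobound M) :
    finrank k (selU U M (Smin ∪ T)) + c ≤ T.card + 3 := by
  have hMk : IsLC₁ (krull ℚ ℚbar) M := (isLC₁_unram_iff.mp hM).1
  have hZ' : ∀ q ∈ Smin ∪ T, U q ≤ zD M q := by
    intro q hq
    rcases Finset.mem_union.mp hq with h | h
    · exact hZ q h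
    · exact (hT q h).le
  have hB' : ∀ q ∈ Smin ∪ T, ∀ X : Matrix (Fin 2) (Fin 2) k, X.trace = 0 →
      (fun d : Dq q => adj M d X - X) ∈ U q := by
    intro q hq X hX
    rcases Finset.mem_union.mp hq with h | h
    · exact hB q h X hX
    · rw [hT q h]
      refine ⟨fun g => by rw [Matrix.trace_sub, trace_adj, sub_self], fun g h => ?_, ?_⟩
      · rw [adj_subtype]
        show M (g * h : ΓQ) * X * M (g * h : ΓQ)⁻¹ - X = M g * X * M (g : ΓQ)⁻¹ - X +
          M g * (M h * X * M (h : ΓQ)⁻¹ - X) * M (g : ΓQ)⁻¹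
        rw [_root_.mul_inv_rev, map_mul, map_mul, mul_sub, sub_mul]
        simp only [mul_assoc]
        abel
      · obtain ⟨N, hN, hMN⟩ := hMk
        have hn := (krull ℚ ℚbar).normal N hN
        refine ⟨_, ⟨N, hN, rfl⟩, fun d s hs => ?_⟩
        have e1 : M ((d * s : Dq q) : ΓQ) = M d := hMN d s hs
        have e2 : M ((d * s : Dq q) : ΓQ)⁻¹ = M (d : ΓQ)⁻¹ := by
          have : ((d * s : Dq q) : ΓQ)⁻¹ = (d : ΓQ)⁻¹ * ((d : ΓQ) * (s : ΓQ)⁻¹ * (d : ΓQ)⁻¹) := by
            rw [Subgroup.coe_mul]; group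
          rw [this]
          exact hMN _ _ (hn.conj_mem _ (N.inv_mem hs) _)
        show adj M ((d * s : Dq q) : ΓQ) X - X = adj M d X - X
        rw [adj, adj, e1, e2]
  have key := gw_matrix I hτ h2 hχ hδ (fun v => pU U v.1)
    (fun v X hX => ⟨_, hB' v.1 v.2 X hX, rfl⟩)
    (fun v => push_le (hZ' v.1 v.2))
  -- the local terms
  have hsum : ∑ v : ↥(Smin ∪ T), finrank k (pU U v.1) = ∑ q ∈ Smin ∪ T, finrank k (U q) := by
    rw [← Finset.sum_coe_sort (Smin ∪ T) fun q => finrank k (U q)]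
    exact Finset.sum_congr rfl fun v _ => finrank_push (denseIn v.1) (hZ' v.1 v.2)
  have hsum2 : ∑ q ∈ Smin ∪ T, finrank k (U q) + c ≤ 3 * Smin.card + 1 + 4 * T.card := by
    rw [Finset.sum_union hdisj]
    have e1 : ∑ q ∈ T, finrank k (U q) ≤ 4 * T.card := by
      rw [mul_comm, ← smul_eq_mul, ← Finset.sum_const]
      exact Finset.sum_le_sum fun q hq => by rw [hT q hq]; exact hdT q hq
    omega
  have hcard : Fintype.card ↥(Smin ∪ T) = Smin.card + T.card := by
    rw [Fintype.card_coe, Finset.card_union_of_disjoint hdisj]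
  -- the dual term
  have hdual : finrank k (selD' hτ h2 hχ U I) ≤ 3 := by
    rw [← h3]
    refine Submodule.finrank_mono fun ψ hψ => ?_
    have hloc : ∀ q ∈ T, ∃ X : Matrix (Fin 2) (Fin 2) k, X.trace = 0 ∧
        ∀ φ ∈ Dq q, ψ φ = tw M φ X - X := fun q hq =>
      exists_cobound hτ h2 hχ U hMk I (Finset.mem_union_right _ hq) (hT q hq) hψ
    exact hW ψ (selD_mem hτ h2 hχ U hM I₀ I hψ hloc) hloc
  rw [hsum, hcard] at key
  have key2 : finrank k (selU U M (Smin ∪ T)) + 1 + 3 * (Smin.card + T.card) ≤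
    ∑ q ∈ Smin ∪ T, finrank k (U q) + finrank k (selD' hτ h2 hχ U I) := key
  omega

/-- The defect when the conditions are zero at `Sig`. -/
theorem sum_finrank_add_le {Smin Sig : Finset Nat.Primes} (hSig : Sig ⊆ Smin)
    (h0 : ∀ q ∈ Sig, U q = ⊥) {pp : Nat.Primes} (hpp : pp ∈ Smin) (hppS : pp ∉ Sig)
    (hdp : finrank k (U pp) ≤ 4)
    (hdmin : ∀ q ∈ Smin, q ≠ pp → finrank k (U q) ≤ 3) :
    ∑ q ∈ Smin, finrank k (U q) + 3 * Sig.card ≤ 3 * Smin.card + 1 := by
  classical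
  have e0 : ∑ q ∈ Smin, finrank k (U q) = ∑ q ∈ Smin \ Sig, finrank k (U q) := by
    rw [← Finset.sum_sdiff hSig]
    have : ∑ q ∈ Sig, finrank k (U q) = 0 :=
      Finset.sum_eq_zero fun q hq => by rw [h0 q hq, finrank_bot]
    rw [this, add_zero]
  have hpp' : pp ∈ Smin \ Sig := Finset.mem_sdiff.mpr ⟨hpp, hppS⟩
  have hcard : (Smin \ Sig).card + Sig.card = Smin.card := Finset.card_sdiff_add_card_eq_card hSig
  have e2 : ∑ q ∈ Smin \ Sig, finrank k (U q) ≤ 3 * (Smin \ Sig).card + 1 := by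
    rw [← Finset.add_sum_erase _ _ hpp']
    have e3 : ∑ q ∈ (Smin \ Sig).erase pp, finrank k (U q) ≤ 3 * ((Smin \ Sig).erase pp).card := by
      rw [mul_comm, ← smul_eq_mul, ← Finset.sum_const]
      exact Finset.sum_le_sum fun q hq =>
        hdmin q (Finset.mem_sdiff.mp (Finset.mem_of_mem_erase hq)).1 (Finset.ne_of_mem_erase hq)
    have e4 := Finset.card_erase_add_one hpp'
    omega
  rw [e0]
  omega

end Main

end Fermat.Agent.TWP.GW
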