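import Fermat.Agent.TWP.Wiring
import Fermat.Agent.CFT.PT.Tail
import Fermat.Agent.CFT.PT.Ext
import Fermat.Agent.CFT.EC.InfPlaces

/-!
# The Greenberg–Wiles inputs from class field theory

`gwInput_of_cft` : the structure `GWI` for `ad⁰(1)` from local duality, reciprocity, the cokernel
bound `HG2`, finiteness and the Euler characteristic inequality `ECIneq`.
-/

set_option autoImplicit false
set_option linter.unusedSectionVars false

namespace Fermat.Agent.TWP.GW

open Module Matrix Pointwise Fermat.Agent.CFT Fermat.Agent.CFT.LC Fermat.Agent.CFT.PT ExtCitation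

local notation "ℚbar" => AlgebraicClosure ℚ
local notation "ΓQ" => (AlgebraicClosure ℚ ≃ₐ[ℚ] AlgebraicClosure ℚ)

section Arch

theorem trace_eq_zero_of_sq {k : Type} [Field k] {C : Matrix (Fin 2) (Fin 2) k} (h : C * C = 1)
    (hdet : C.det = -1) : C.trace = 0 := by
  have h00 := congrFun (congrFun h 0) 0
  have h11 := congrFun (congrFun h 1) 1
  rw [Matrix.mul_apply, Fin.sum_univ_two, Matrix.one_apply_eq] at h00 h11
  rw [Matrix.det_fin_two] at hdet
  have h3 : C.trace * C.trace = 0 := by
    rw [Matrix.trace_fin_two]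
    linear_combination h00 + h11 + 2 * hdet
  exact mul_self_eq_zero.mp h3

variable {F k : Type} [Field F] [Field k] [Algebra F k]
  {G : Type} [Group G] (M : G →* Matrix (Fin 2) (Fin 2) k)

/-- the invariants of one element on `ad⁰ ⊗ det`, over `k`. -/
def invTw (c : G) : Submodule k (ad0 k) where
  carrier := {X | tw M c X.1 = X.1}
  zero_mem' := tw_zero' M c
  add_mem' := fun {X Y} hX hY => by
    show tw M c (X.1 + Y.1) = X.1 + Y.1
    rw [tw_add]
    exact congrArg₂ (· + ·) hX hY
  smul_mem' := fun a X hX => by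
    have hX' : tw M c X.1 = X.1 := hX
    show tw M c (a • X.1) = a • X.1
    conv_rhs => rw [← hX']
    simp only [tw, mul_smul_comm, smul_mul_assoc]
    rw [smul_comm]

theorem finrank_invTw_le (h2 : (2 : k) ≠ 0) {c : G} (hc : c * c = 1) (hdet : (M c).det = -1) :
    finrank k (invTw M c) ≤ 2 := by
  have h3 : finrank k (ad0 k) = 3 := finrank_ad0
  have : FiniteDimensional k (ad0 k) := Module.finite_of_finrank_pos (by omega)
  by_contra hlt
  have h4 : finrank k (invTw M c) = finrank k (ad0 k) := by
    have := Submodule.finrank_le (invTw M c)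
    omega
  have htop : invTw M c = ⊤ := Submodule.eq_top_of_finrank_eq h4
  have hsq : M c * M c = 1 := by rw [← map_mul, hc, map_one]
  have htr := trace_eq_zero_of_sq hsq hdet
  have hmem : (⟨M c, mem_ad0.mpr htr⟩ : ad0 k) ∈ invTw M c := htop ▸ Submodule.mem_top
  have h5 : tw M c (M c) = M c := hmem
  have hinv : c⁻¹ = c := inv_eq_of_mul_eq_one_right hc
  rw [tw, hinv, hsq, one_mul, hdet, neg_one_smul] at h5
  have h6 : (2 : k) • M c = 0 := by
    rw [two_smul]
    nth_rewrite 1 [← h5]
    rw [neg_add_cancel]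
  have h7 : M c = 0 := (smul_eq_zero.mp h6).resolve_left h2
  rw [h7, zero_mul] at hsq
  exact zero_ne_one hsq

theorem finrank_ker_twRep_le [FiniteDimensional F k] (h2 : (2 : k) ≠ 0) {c : G} (hc : c * c = 1)
    (hdet : (M c).det = -1) :
    finrank F (LinearMap.ker (twRep F M c - 1)) ≤ 2 * finrank F k := by
  have h1 : LinearMap.ker (twRep F M c - 1) = (invTw M c).restrictScalars F := by
    ext X
    rw [LinearMap.mem_ker, LinearMap.sub_apply, sub_eq_zero, Module.End.one_apply,
      Submodule.restrictScalars_mem]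
    exact ⟨fun h => congrArg Subtype.val h, fun h => Subtype.ext h⟩
  rw [h1]
  have : Module.Free k (invTw M c) :=
    @Module.Free.of_divisionRing k (invTw M c) _ (Submodule.addCommGroup _) _
  have h3 : finrank F ((invTw M c).restrictScalars F) = finrank F (invTw M c) := rfl
  have h4 := Module.finrank_mul_finrank F k (invTw M c)
  have h5 := finrank_invTw_le M h2 hc hdet
  rw [h3, ← h4, mul_comm]
  exact Nat.mul_le_mul_right _ h5

theorem finrank_ad0_base [FiniteDimensional F k] : finrank F (ad0 k) = 3 * finrank F k := by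
  rw [← Module.finrank_mul_finrank F k (ad0 k), finrank_ad0, mul_comm]

end Arch

section Main

/-- **The Euler characteristic inequality** and the finiteness of `H¹` for representations of
`G_{ℚ,S}` over `𝔽_p`. -/
def ECIneq (p : ℕ) [Fact p.Prime] (S : Finset Nat.Primes) : Prop :=
  ∀ {V : Type} [AddCommGroup V] [Module (ZMod p) V] [FiniteDimensional (ZMod p) V]
    (ρ : Representation (ZMod p) ΓQ V), Smooth (unram S) ρ →
    finrank (ZMod p) (LC.H0 ρ) + finrank (ZMod p) (LC.H2 ρ (unram S)) + finrank (ZMod p) V ≤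
      finrank (ZMod p) (LC.H1 ρ (unram S)) +
        finrank (ZMod p) (LinearMap.ker (ρ complexConjugation - 1))

/-- finiteness of `H¹` -/
def FinH1 (p : ℕ) [Fact p.Prime] (S : Finset Nat.Primes) : Prop :=
  ∀ {V : Type} [AddCommGroup V] [Module (ZMod p) V] [FiniteDimensional (ZMod p) V]
    (ρ : Representation (ZMod p) ΓQ V), Smooth (unram S) ρ →
    FiniteDimensional (ZMod p) (LC.H1 ρ (unram S))

/-- Local duality at the primes of `S`, reciprocity and the bound on the cokernel of
localisation. -/
structure PTInputs (p : ℕ) [Fact p.Prime] (S : Finset Nat.Primes) where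
  /-- the local degrees -/
  δ : S → ℕ
  /-- local duality -/
  D : ∀ v : S, LocalDuality (lvlOver (primeLocalToGlobal v.1))
    ((cycloChar p).comp (primeLocalToGlobal v.1)) (δ v)
  hrec : HRec (unram S) (cycloChar p) (fun v : S => lvlOver (primeLocalToGlobal v.1))
    (fun v : S => primeLocalToGlobal v.1) (fun _ : S => cont_lvlOver_unram S _) fun v => (D v).inv
  hG2 : HG2 (unram S) (cycloChar p) (fun v : S => lvlOver (primeLocalToGlobal v.1))
    (fun v : S => primeLocalToGlobal v.1) (fun _ : S => cont_lvlOver_unram S _)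
  fin2 : FinH2 (k := ZMod p) (unram S)
  fin1 : FinH1 p S
  ec : ECIneq p S

variable {p : ℕ} [Fact p.Prime] {k : Type} [Field k] [Algebra (ZMod p) k]
  {M : ΓQ →* Matrix (Fin 2) (Fin 2) k}

theorem smooth_twRep {G : Type} [Group G] {L : Lvl G} {N : G →* Matrix (Fin 2) (Fin 2) k}
    (h : IsLC₁ L N) : Smooth L (twRep (ZMod p) N) := by
  obtain ⟨U, hU, h⟩ := h
  refine fun X => ⟨U, hU, fun s hs => Subtype.ext ?_⟩
  have h1 : N s = 1 := by
    have := h 1 s hs
    rwa [one_mul, map_one] at this
  have h2 : N s⁻¹ = 1 := by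
    have := h 1 s⁻¹ (inv_mem hs)
    rwa [one_mul, map_one] at this
  show tw N s X.1 = X.1
  rw [tw, h1, h2, Matrix.det_one, one_smul, one_mul, mul_one]

theorem gwi_of_cft [FiniteDimensional (ZMod p) k] (h2 : (2 : k) ≠ 0)
    (hχ : ∀ g, algebraMap (ZMod p) k (cycloChar p g) = (M g).det) {S : Finset Nat.Primes}
    (hpS : pPrime p ∈ S) (hM : IsLC₁ (unram S) M) (I : PTInputs p S) :
    Nonempty (GWI M (cycloChar p) S (finrank (ZMod p) k)) := by
  have hs : Smooth (unram S) (twRep (ZMod p) M) := smooth_twRep hM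
  have hcont : ContChar (unram S) (cycloChar p) := isOpen_unram_ker_cycloChar hpS
  have hs' := PT.smooth_dtw hs hcont
  have hne : Nonempty S := ⟨⟨pPrime p, hpS⟩⟩
  have hT : TailFormula (unram S) (cycloChar p) (fun v : S => lvlOver (primeLocalToGlobal v.1))
      (fun v : S => primeLocalToGlobal v.1) (fun _ : S => cont_lvlOver_unram S _) :=
    tailFormula I.D I.hrec I.hG2 I.fin2 hcont
  obtain ⟨-, hsha⟩ := sha1_finite_and_le hT I.fin2 hcont (twRep (ZMod p) M) hs
  have htail := hT (twRep (ZMod p) M) hs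
  have hdetc : (M complexConjugation).det = -1 := by
    rw [← hχ, EC.cycloChar_complexConjugation, map_neg, map_one]
  refine ⟨{ δ := I.δ, D := I.D, hrec := I.hrec, cont := hcont, smooth := hs, fin := I.fin1 _ hs,
            fin' := I.fin1 _ hs', ec := ?_, num := ?_ }⟩
  · have h1 := I.ec (twRep (ZMod p) M) hs
    have h3 := finrank_ker_twRep_le (F := ZMod p) M h2 complexConjugation_mul_self hdetc
    have h4 := finrank_ad0_base (F := ZMod p) (k := k)
    omega
  · have h1 : finrank (ZMod p) (⨅ v : S, LinearMap.ker (locD (unram S) (cycloChar p)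
        (fun v : S => lvlOver (primeLocalToGlobal v.1))
        (fun v : S => primeLocalToGlobal v.1) (fun _ : S => cont_lvlOver_unram S _)
        (twRep (ZMod p) M) v) : Submodule (ZMod p) _) ≤
        finrank (ZMod p) (Sha1 (unram S) (fun v : S => lvlOver (primeLocalToGlobal v.1))
        (fun v : S => primeLocalToGlobal v.1) (fun _ : S => cont_lvlOver_unram S _)
        (dtw (twRep (ZMod p) M) (cycloChar p))) := by
      have := I.fin1 _ hs'
      refine Submodule.finrank_mono fun x hx => ?_
      obtain ⟨c, rfl⟩ := H1.mk_surjective x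
      rw [mem_Sha1]
      intro v
      rw [Submodule.mem_iInf] at hx
      have h3 : (locD (unram S) (cycloChar p) (fun v : S => lvlOver (primeLocalToGlobal v.1))
        (fun v : S => primeLocalToGlobal v.1) (fun _ : S => cont_lvlOver_unram S _)
        (twRep (ZMod p) M) v) (H1.mk (dtw (twRep (ZMod p) M) (cycloChar p)) (unram S) c) = 0 := hx v
      rw [locD, Mor.H1_mk, H1.mk_eq_zero_iff] at h3
      rw [Mor.H1_mk, H1.mk_eq_zero_iff]
      obtain ⟨θ, h3⟩ := h3
      refine ⟨θ, fun g => ?_⟩
      have h4 := DFunLike.congr_fun (dtw_comp (twRep (ZMod p) M) (cycloChar p)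
        (primeLocalToGlobal v.1)) g
      exact (h3 g).trans (congrArg (fun T : Dual (ZMod p) (ad0 k) →ₗ[ZMod p] Dual (ZMod p) (ad0 k)
        => T θ - θ) h4.symm)
    have h2 : ∑ v : S, finrank (ZMod p) (LC.H0 (dtw ((twRep (ZMod p) M).comp
        (primeLocalToGlobal v.1)) ((cycloChar p).comp (primeLocalToGlobal v.1)))) =
        ∑ v : S, finrank (ZMod p) (LC.H0 (dtw ((twRep (ZMod p) M).comp
          ((fun v : S => primeLocalToGlobal v.1) v)) ((cycloChar p).comp
            ((fun v : S => primeLocalToGlobal v.1) v)))) := rfl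
    rw [← h2] at htail
    omega

/-- **`GWInput` from class field theory.** -/
theorem gwInput_of_cft (h2 : (2 : k) ≠ 0)
    (hχ : ∀ g, algebraMap (ZMod p) k (cycloChar p g) = (M g).det)
    (I : ∀ S : Finset Nat.Primes, pPrime p ∈ S → Nonempty (PTInputs p S)) :
    Wiring.GWInput p M := fun _ S hpS hM => by
  obtain ⟨I⟩ := I S hpS
  exact gwi_of_cft h2 hχ hpS hM I

end Main

end Fermat.Agent.TWP.GW
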