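import Fermat.Agent.TWP.GW.FromCFT
import Fermat.Agent.CFT.EC.Finite
import Fermat.Agent.CFT.D2.HG3
import Fermat.Agent.CFT.D3.Final

/-!
# The Greenberg–Wiles inputs from reciprocity and the Euler characteristic inequality
-/

set_option autoImplicit false

namespace Fermat.Agent.TWP.GW

open Module Matrix Pointwise Fermat.Agent.CFT Fermat.Agent.CFT.LC Fermat.Agent.CFT.PT ExtCitation

local notation "ℚbar" => AlgebraicClosure ℚ
local notation "ΓQ" => (AlgebraicClosure ℚ ≃ₐ[ℚ] AlgebraicClosure ℚ)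

variable {p : ℕ} [Fact p.Prime]

/-- Local duality at the primes of `S` together with reciprocity. -/
def RecInput (p : ℕ) [Fact p.Prime] : Prop :=
  ∀ S : Finset Nat.Primes, pPrime p ∈ S → ∃ (δ : S → ℕ)
    (D : ∀ v : S, LocalDuality (lvlOver (primeLocalToGlobal v.1))
      ((cycloChar p).comp (primeLocalToGlobal v.1)) (δ v)),
    HRec (unram S) (cycloChar p) (fun v : S => lvlOver (primeLocalToGlobal v.1))
      (fun v : S => primeLocalToGlobal v.1) (fun _ : S => cont_lvlOver_unram S _)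
      fun v => (D v).inv

theorem ptInputs_of_rec (hp2 : p ≠ 2) (hrec : RecInput p)
    (hec : ∀ S : Finset Nat.Primes, pPrime p ∈ S → ECIneq p S) (S : Finset Nat.Primes)
    (hpS : pPrime p ∈ S) : Nonempty (PTInputs p S) := by
  obtain ⟨δ, D, h⟩ := hrec S hpS
  have hcont : ContChar (unram S) (cycloChar p) := isOpen_unram_ker_cycloChar hpS
  have h3 : HG3 (k := ZMod p) (unram S) (cycloChar p) := D2.hG3_of_rec hp2 hpS D h
  exact ⟨{ δ := δ, D := D, hrec := h, hG2 := D3.hg2_prime hp2 hpS,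
           fin2 := EC.Fin.finH2_of_hG3 hcont h3,
           fin1 := fun ρ hρ => EC.Fin.finH1_of_hG3 hcont h3 ρ hρ,
           ec := hec S hpS }⟩

theorem gwInput_of_rec {k : Type} [Field k] [Algebra (ZMod p) k]
    {M : ΓQ →* Matrix (Fin 2) (Fin 2) k} (hp2 : p ≠ 2) (h2 : (2 : k) ≠ 0)
    (hχ : ∀ g, algebraMap (ZMod p) k (cycloChar p g) = (M g).det) (hrec : RecInput p)
    (hec : ∀ S : Finset Nat.Primes, pPrime p ∈ S → ECIneq p S) : Wiring.GWInput p M :=
  gwInput_of_cft h2 hχ fun S hpS => ptInputs_of_rec hp2 hrec hec S hpS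

end Fermat.Agent.TWP.GW
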