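import Fermat.Agent.TWP.GW.Abstract

/-!
# The Greenberg–Wiles inequality for level-constant cochains

`Inputs` collects the arithmetic inputs (local duality, reciprocity, Euler characteristic and
Poitou–Tate numerics); `Inputs.gw_cocycle` is the inequality in terms of cocycle spaces.
-/

set_option autoImplicit false
set_option linter.unusedSectionVars false

namespace Fermat.Agent.TWP.GW

open Module Fermat.Agent.CFT Fermat.Agent.CFT.LC Fermat.Agent.CFT.PT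

variable {k : Type} [Field k] {G : Type} [Group G] (L : Lvl G) (χ : G →* kˣ)
  {ι : Type} [Fintype ι] {Γ : ι → Type} [∀ v, Group (Γ v)] (LΓ : ∀ v, Lvl (Γ v))
  (r : ∀ v, Γ v →* G) (hr : ∀ v, (LΓ v).Cont L (r v))
  {V : Type} [AddCommGroup V] [Module k V] [FiniteDimensional k V] (ρ : Representation k G V)

/-- localisation at `v`, on `H¹`. -/
noncomputable def locN (v : ι) : LC.H1 ρ L →ₗ[k] LC.H1 (ρ.comp (r v)) (LΓ v) :=
  (Mor.res ρ (r v) (hr v)).H1

/-- localisation of the twisted dual at `v`, on `H¹`. -/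
noncomputable def locD (v : ι) : LC.H1 (dtw ρ χ) L →ₗ[k]
    LC.H1 (dtw (ρ.comp (r v)) (χ.comp (r v))) (LΓ v) :=
  (resDtw ρ χ (r v) (hr v)).H1

/-- The Selmer space of the twisted dual. -/
noncomputable def selD (W : ∀ v, Submodule k (LC.H1 (dtw (ρ.comp (r v)) (χ.comp (r v))) (LΓ v))) :
    Submodule k (LC.H1 (dtw ρ χ) L) := ⨅ v, (W v).comap (locD L χ LΓ r hr ρ v)

/-- The Selmer space of a subspace. -/
noncomputable def selN (W : ∀ v, Submodule k (LC.H1 (ρ.comp (r v)) (LΓ v))) :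
    Submodule k (LC.H1 ρ L) := ⨅ v, (W v).comap (locN L LΓ r hr ρ v)

/-- Selmer cocycles of the twisted dual. -/
noncomputable def zselD (U : ∀ v, Submodule k (Γ v → Dual k V)) :
    Submodule k (G → Dual k V) :=
  Z1 (dtw ρ χ) L ⊓ ⨅ v, (U v).comap (LinearMap.funLeft k (Dual k V) (r v))

/-- Selmer cocycles. -/
noncomputable def zselN (U : ∀ v, Submodule k (Γ v → V)) : Submodule k (G → V) :=
  Z1 ρ L ⊓ ⨅ v, (U v).comap (LinearMap.funLeft k V (r v))

theorem mem_zselD {U : ∀ v, Submodule k (Γ v → Dual k V)} {f : G → Dual k V} :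
    f ∈ zselD L χ r ρ U ↔ f ∈ Z1 (dtw ρ χ) L ∧ ∀ v, f ∘ r v ∈ U v := by
  rw [zselD, Submodule.mem_inf, Submodule.mem_iInf]
  rfl

theorem mem_zselN {U : ∀ v, Submodule k (Γ v → V)} {f : G → V} :
    f ∈ zselN L r ρ U ↔ f ∈ Z1 ρ L ∧ ∀ v, f ∘ r v ∈ U v := by
  rw [zselN, Submodule.mem_inf, Submodule.mem_iInf]
  rfl

variable {L χ LΓ r ρ} in
theorem zOf_selD (U : ∀ v, Submodule k (Γ v → Dual k V))
    (hB : ∀ v, B1 (dtw (ρ.comp (r v)) (χ.comp (r v))) ≤ U v)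
    (hZ : ∀ v, U v ≤ Z1 (dtw (ρ.comp (r v)) (χ.comp (r v))) (LΓ v)) :
    zOf (selD L χ LΓ r hr ρ fun v => hOf _ (LΓ v) (U v)) = zselD L χ r ρ U := by
  ext f
  rw [mem_zOf, mem_zselD]
  refine ⟨fun ⟨hf, h⟩ => ⟨hf, fun v => ?_⟩, fun ⟨hf, h⟩ => ⟨hf, ?_⟩⟩
  · rw [selD, Submodule.mem_iInf] at h
    have h1 := h v
    rw [Submodule.mem_comap] at h1
    have h2 : f ∘ r v ∈ zOf (hOf _ (LΓ v) (U v)) :=
      mem_zOf.mpr ⟨(resDtw ρ χ (r v) (hr v)).c1_mem_Z1 hf, h1⟩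
    rwa [zOf_hOf (hB v) (hZ v)] at h2
  · rw [selD, Submodule.mem_iInf]
    intro v
    rw [Submodule.mem_comap]
    exact mem_hOf.mpr ⟨f ∘ r v, (resDtw ρ χ (r v) (hr v)).c1_mem_Z1 hf, h v, rfl⟩

variable {L LΓ r ρ} in
theorem zOf_selN (W : ∀ v, Submodule k (LC.H1 (ρ.comp (r v)) (LΓ v))) :
    zOf (selN L LΓ r hr ρ W) = zselN L r ρ fun v => zOf (W v) := by
  ext f
  rw [mem_zOf, mem_zselN]
  refine ⟨fun ⟨hf, h⟩ => ⟨hf, fun v => ?_⟩, fun ⟨hf, h⟩ => ⟨hf, ?_⟩⟩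
  · rw [selN, Submodule.mem_iInf] at h
    exact mem_zOf.mpr ⟨(Mor.res ρ (r v) (hr v)).c1_mem_Z1 hf, h v⟩
  · rw [selN, Submodule.mem_iInf]
    intro v
    obtain ⟨h1, h2⟩ := mem_zOf.mp (h v)
    exact h2

/-- The arithmetic inputs of the Greenberg–Wiles inequality. `δ∞` is the archimedean
contribution. -/
structure Inputs (δinf : ℕ) where
  /-- local degrees -/
  δ : ι → ℕ
  /-- local duality -/
  D : ∀ v, LocalDuality (LΓ v) (χ.comp (r v)) (δ v)
  hrec : HRec L χ LΓ r hr fun v => (D v).inv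
  cont : ContChar L χ
  smooth : Smooth L ρ
  fin : FiniteDimensional k (LC.H1 ρ L)
  fin' : FiniteDimensional k (LC.H1 (dtw ρ χ) L)
  ec : finrank k (LC.H0 ρ) + finrank k (LC.H2 ρ L) + δinf ≤ finrank k (LC.H1 ρ L)
  num : finrank k (⨅ v, LinearMap.ker (locD L χ LΓ r hr ρ v) : Submodule k _) +
      ∑ v, finrank k (LC.H0 (dtw (ρ.comp (r v)) (χ.comp (r v)))) ≤
    finrank k (LC.H2 ρ L) + finrank k (LC.H0 (dtw ρ χ))

namespace Inputs

variable {L χ LΓ r hr ρ} {δinf : ℕ} (I : Inputs L χ LΓ r hr ρ δinf)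

include I

theorem smooth_dtw : Smooth L (dtw ρ χ) := PT.smooth_dtw I.smooth I.cont

theorem smooth_loc (v : ι) : Smooth (LΓ v) (ρ.comp (r v)) := I.smooth.comp (hr v)

theorem smooth_dloc (v : ι) : Smooth (LΓ v) (dtw (ρ.comp (r v)) (χ.comp (r v))) :=
  PT.smooth_dtw (I.smooth_loc v) (I.cont.comp (hr v))

/-- The local pairing. -/
noncomputable def pair (v : ι) : LC.H1 (ρ.comp (r v)) (LΓ v) →ₗ[k]
    LC.H1 (dtw (ρ.comp (r v)) (χ.comp (r v))) (LΓ v) →ₗ[k] k :=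
  pair11 (χ.comp (r v)) (I.D v).inv (ρ.comp (r v)) (I.smooth_dloc v)

theorem orth (x : LC.H1 ρ L) (y : LC.H1 (dtw ρ χ) L) :
    ∑ v, I.pair v (locN L LΓ r hr ρ v x) (locD L χ LΓ r hr ρ v y) = 0 := by
  have h := I.hrec (cup11 (evp_isPairing ρ χ) I.smooth_dtw x y)
  rw [← h]
  refine Finset.sum_congr rfl fun v _ => ?_
  rw [← cup11_res ρ χ (r v) (hr v) I.smooth_dtw (I.smooth_dloc v) x y]
  rfl

theorem gw_cohom (W : ∀ v, Submodule k (LC.H1 (dtw (ρ.comp (r v)) (χ.comp (r v))) (LΓ v))) :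
    finrank k (selD L χ LΓ r hr ρ W) + finrank k (LC.H0 ρ) + δinf +
      ∑ v, finrank k (LC.H0 (dtw (ρ.comp (r v)) (χ.comp (r v)))) ≤
    ∑ v, finrank k (W v) + finrank k (selN L LΓ r hr ρ fun v => lorth (I.pair v) (W v)) +
      finrank k (LC.H0 (dtw ρ χ)) := by
  have := I.fin
  have := I.fin'
  have h := @finrank_sel_add_le k _ ι _ (fun v => LC.H1 (ρ.comp (r v)) (LΓ v))
    (fun v => LC.H1 (dtw (ρ.comp (r v)) (χ.comp (r v))) (LΓ v))
    (fun v => inferInstance) (fun v => inferInstance) (fun v => inferInstance)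
    (fun v => inferInstance) (fun v => (I.D v).fin1 _ (I.smooth_loc v))
    (fun v => (I.D v).fin1 _ (I.smooth_dloc v)) (LC.H1 ρ L) (LC.H1 (dtw ρ χ) L) _ _ _ _ _ _
    (locN L LΓ r hr ρ) (locD L χ LΓ r hr ρ) I.pair W
    (fun v => (I.D v).left _ (I.smooth_loc v) (I.smooth_dloc v))
    (fun v => (I.D v).right _ (I.smooth_loc v) (I.smooth_dloc v)) I.orth
  have h1 := I.ec
  have h2 := I.num
  change finrank k ↥(selD L χ LΓ r hr ρ W) + finrank k (LC.H1 ρ L) ≤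
    finrank k ↥(⨅ v, LinearMap.ker (locD L χ LΓ r hr ρ v)) + ∑ v, finrank k ↥(W v) +
      finrank k ↥(selN L LΓ r hr ρ fun v => lorth (I.pair v) (W v)) at h
  omega

/-- The annihilator (in cocycles) of a space of local cocycles. -/
noncomputable def perp (v : ι) (U : Submodule k (Γ v → Dual k V)) : Submodule k (Γ v → V) :=
  zOf (lorth (I.pair v) (hOf _ (LΓ v) U))

theorem mem_perp {v : ι} {U : Submodule k (Γ v → Dual k V)} {a : Γ v → V} :
    a ∈ I.perp v U ↔ ∃ ha : a ∈ Z1 (ρ.comp (r v)) (LΓ v),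
      ∀ y (hy : y ∈ Z1 (dtw (ρ.comp (r v)) (χ.comp (r v))) (LΓ v)), y ∈ U →
        I.pair v (H1.mk (ρ.comp (r v)) (LΓ v) ⟨a, ha⟩)
          (H1.mk (dtw (ρ.comp (r v)) (χ.comp (r v))) (LΓ v) ⟨y, hy⟩) = 0 := by
  rw [perp, mem_zOf]
  refine exists_congr fun ha => ?_
  rw [mem_lorth]
  constructor
  · intro h y hy hU
    exact h _ (mem_hOf.mpr ⟨y, hy, hU, rfl⟩)
  · intro h y hy
    obtain ⟨f, hf, hU, rfl⟩ := mem_hOf.mp hy
    exact h f hf hU

/-- An element orthogonal to all cocycles is a coboundary. -/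
theorem perp_le_B1 (v : ι) {U : Submodule k (Γ v → Dual k V)}
    (hU : Z1 (dtw (ρ.comp (r v)) (χ.comp (r v))) (LΓ v) ≤ U) :
    I.perp v U ≤ B1 (ρ.comp (r v)) := by
  intro a ha
  obtain ⟨ha, h⟩ := I.mem_perp.mp ha
  have h1 : H1.mk (ρ.comp (r v)) (LΓ v) ⟨a, ha⟩ = 0 := by
    refine (I.D v).left _ (I.smooth_loc v) (I.smooth_dloc v) _ fun y => ?_
    obtain ⟨y, rfl⟩ := H1.mk_surjective y
    exact h y.1 y.2 (hU y.2)
  exact (mem_B1 _).mpr (H1.mk_eq_zero_iff.mp h1)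

theorem B1_le_perp (v : ι) (U : Submodule k (Γ v → Dual k V)) :
    B1 (ρ.comp (r v)) ≤ I.perp v U := B1_le_zOf (I.smooth_loc v) _

/-- **Greenberg–Wiles inequality**, cocycle form. -/
theorem gw_cocycle (U : ∀ v, Submodule k (Γ v → Dual k V))
    (hB : ∀ v, B1 (dtw (ρ.comp (r v)) (χ.comp (r v))) ≤ U v)
    (hZ : ∀ v, U v ≤ Z1 (dtw (ρ.comp (r v)) (χ.comp (r v))) (LΓ v)) :
    finrank k (zselD L χ r ρ U) + δinf + Fintype.card ι * finrank k V ≤
      ∑ v, finrank k (U v) + finrank k (zselN L r ρ fun v => I.perp v (U v)) := by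
  have := I.fin
  have := I.fin'
  have key := I.gw_cohom fun v => hOf _ (LΓ v) (U v)
  have e1 := zOf_selD hr U hB hZ
  have e2 := zOf_selN hr (ρ := ρ) fun v => lorth (I.pair v) (hOf _ (LΓ v) (U v))
  have e3 : (zselN L r ρ fun v => I.perp v (U v)) =
    zselN L r ρ fun v => zOf (lorth (I.pair v) (hOf _ (LΓ v) (U v))) := rfl
  rw [e3, ← e1, ← e2, finrank_zOf I.smooth_dtw, finrank_zOf I.smooth]
  have h1 := finrank_B1_add ρ
  have h2 := finrank_B1_add (dtw ρ χ)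
  have h3 : finrank k (Dual k V) = finrank k V := Subspace.dual_finrank_eq
  have h4 : ∀ v, finrank k (U v) + finrank k (LC.H0 (dtw (ρ.comp (r v)) (χ.comp (r v)))) =
      finrank k (hOf (dtw (ρ.comp (r v)) (χ.comp (r v))) (LΓ v) (U v)) + finrank k V := by
    intro v
    have := (I.D v).fin1 _ (I.smooth_dloc v)
    have h5 := finrank_zOf (I.smooth_dloc v)
      (hOf (dtw (ρ.comp (r v)) (χ.comp (r v))) (LΓ v) (U v))
    rw [zOf_hOf (hB v) (hZ v)] at h5
    have h6 := finrank_B1_add (dtw (ρ.comp (r v)) (χ.comp (r v)))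
    omega
  have h5 := Finset.sum_congr rfl fun v (_ : v ∈ Finset.univ) => h4 v
  rw [Finset.sum_add_distrib, Finset.sum_add_distrib, Finset.sum_const, smul_eq_mul,
    Finset.card_univ] at h5
  omega

/-- Finiteness of the space of dual Selmer cocycles. -/
theorem finite_zselN (U : ∀ v, Submodule k (Γ v → V)) :
    FiniteDimensional k (zselN L r ρ U) := by
  have := I.fin
  have := finite_Z1 (L := L) I.smooth
  exact Submodule.finiteDimensional_of_le inf_le_left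

theorem finite_zselD (U : ∀ v, Submodule k (Γ v → Dual k V)) :
    FiniteDimensional k (zselD L χ r ρ U) := by
  have := I.fin'
  have := finite_Z1 (L := L) I.smooth_dtw
  exact Submodule.finiteDimensional_of_le inf_le_left

end Inputs

end Fermat.Agent.TWP.GW
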